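import Fermat.Agent.GAL.FF.LSpace

/-!
# GAL / FF : `deg (t)_0 = deg (t)_∞ = [F : K(t)]`, `HasPrincipalDivisors`  (package FF-R4)

Any characteristic, `K` algebraically closed.  Reference: Stichtenoth 1.4.11, 1.4.12.
-/

set_option autoImplicit false

namespace Fermat.Agent.GAL.FF

open AlgebraicCurve IntermediateField Fermat.Agent.S24.FF

variable {K F : Type*} [Field K] [Field F] [Algebra K F]

variable (K) in
/-- the pole divisor `(t)_∞` -/
noncomputable def poleDiv [IsFF1 K F] (t : F) : Divisor K F :=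
  Finsupp.ofSupportFinite (fun v => max 0 (- v.ord t))
    ((finite_support_ord t).subset (by
      intro v hv h0
      simp only [Function.mem_support] at hv
      exact hv (by simp [h0])))

@[simp] theorem poleDiv_apply [IsFF1 K F] (t : F) (v : Place K F) :
    poleDiv K t v = max 0 (- v.ord t) := rfl

theorem poleDiv_nonneg [IsFF1 K F] (t : F) : 0 ≤ poleDiv K t := by
  intro v
  simp

/-- powers of a transcendental element are linearly independent. -/
theorem linearIndependent_pow_of_transcendental {A : Type*} [CommRing A] [Algebra K A] {x : A}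
    (hx : Transcendental K x) : LinearIndependent K (fun i : ℕ => x ^ i) := by
  have h1 := (Polynomial.basisMonomials K).linearIndependent.map'
    (Polynomial.aeval x : Polynomial K →ₐ[K] A).toLinearMap
    (LinearMap.ker_eq_bot.mpr (transcendental_iff_injective.mp hx))
  have e : (fun i : ℕ => x ^ i)
      = (Polynomial.aeval x : Polynomial K →ₐ[K] A).toLinearMap ∘ Polynomial.basisMonomials K := by
    ext i
    simp [Polynomial.coe_basisMonomials]
  rw [e]
  exact h1

/-- key construction (Stichtenoth, proof of 1.4.11): with `n = [F:K(t)]`, `B = (t)_∞` there is `C ≥ 0`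
with `ℓ(l B + C) ≥ n (l+1)` for all `l` (`tⁱ uⱼ`, `uⱼ` a basis of `F/K(t)`). -/
theorem exists_ell_ge [IsAlgClosed K] [IsFF1 K F] {t : F} (ht : Transcendental K t) :
    ∃ C : Divisor K F, 0 ≤ C ∧ ∀ l : ℕ,
      Module.finrank K⟮t⟯ F * (l + 1) ≤ ell (l • poleDiv K t + C) := by
  classical
  have hfin : FiniteDimensional K⟮t⟯ F := finiteDimensional_adjoin_of_transcendental ht
  set n := Module.finrank K⟮t⟯ F with hn
  let u : Module.Basis (Fin n) K⟮t⟯ F := Module.finBasis K⟮t⟯ F
  have hu0 : ∀ j, u j ≠ 0 := fun j => u.ne_zero j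
  have ht0 : t ≠ 0 := by
    rintro rfl
    exact ht isAlgebraic_zero
  refine ⟨∑ j, poleDiv K (u j), Finset.sum_nonneg fun j _ => poleDiv_nonneg _, fun l => ?_⟩
  have hgen : Transcendental K (AdjoinSimple.gen K t) := by
    rw [← transcendental_algebraMap_iff (A := F) (algebraMap K⟮t⟯ F).injective]
    simpa using ht
  have hb : LinearIndependent K (fun i : Fin (l + 1) => (AdjoinSimple.gen K t) ^ (i : ℕ)) :=
    (linearIndependent_pow_of_transcendental hgen).comp _ Fin.val_injective
  have hli := linearIndependent_smul hb u.linearIndependent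
  -- the family lies in `L(l B + C)`
  have hmem : ∀ p : Fin (l + 1) × Fin n, (AdjoinSimple.gen K t) ^ (p.1 : ℕ) • u p.2
      ∈ riemannRochSpace (l • poleDiv K t + ∑ j, poleDiv K (u j)) := by
    intro p
    have e : (AdjoinSimple.gen K t) ^ (p.1 : ℕ) • u p.2 = t ^ (p.1 : ℕ) * u p.2 := by
      rw [Algebra.smul_def, map_pow]
      simp
    rw [e, mem_riemannRochSpace_iff]
    intro v
    right
    rw [v.ord_mul (pow_ne_zero _ ht0) (hu0 _), ord_pow]
    have h1 : poleDiv K (u p.2) v ≤ (∑ j, poleDiv K (u j)) v := by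
      rw [Finsupp.finsetSum_apply]
      exact Finset.single_le_sum (f := fun j => poleDiv K (u j) v)
        (fun j _ => poleDiv_nonneg (K := K) (u j) v) (Finset.mem_univ p.2)
    have h2 : - v.ord (u p.2) ≤ poleDiv K (u p.2) v := by simp
    have h3 : - ((p.1 : ℕ) : ℤ) * v.ord t ≤ (l : ℤ) * poleDiv K t v := by
      have hp : ((p.1 : ℕ) : ℤ) ≤ l := by
        have := p.1.2
        exact_mod_cast Nat.lt_succ_iff.mp this
      have h4 : - v.ord t ≤ poleDiv K t v := by simp
      have h5 : 0 ≤ poleDiv K t v := poleDiv_nonneg (K := K) t v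
      have h6 : (0 : ℤ) ≤ ((p.1 : ℕ) : ℤ) := Int.natCast_nonneg _
      nlinarith
    have h7 : (l • poleDiv K t + ∑ j, poleDiv K (u j)) v
        = (l : ℤ) * poleDiv K t v + (∑ j, poleDiv K (u j)) v := by
      simp
    rw [h7]
    linarith
  have hli' : LinearIndependent K (fun p : Fin (l + 1) × Fin n =>
      (⟨(AdjoinSimple.gen K t) ^ (p.1 : ℕ) • u p.2, hmem p⟩ :
        riemannRochSpace (l • poleDiv K t + ∑ j, poleDiv K (u j)))) := by
    apply LinearIndependent.of_comp (riemannRochSpace (l • poleDiv K t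
      + ∑ j, poleDiv K (u j))).subtype
    exact hli
  have hcard := hli'.fintype_card_le_finrank
  rw [Fintype.card_prod, Fintype.card_fin, Fintype.card_fin] at hcard
  rw [mul_comm]
  exact hcard

theorem degree_poleDiv_le [IsAlgClosed K] [IsFF1 K F] {t : F} (ht : Transcendental K t) :
    Divisor.degree (poleDiv K t) ≤ (Module.finrank K⟮t⟯ F : ℤ) := by
  have h1 := sum_ord_le_finrank (transcendental_inv ht) (poleDiv K t).support (by
    intro v hv
    rw [Finsupp.mem_support_iff, poleDiv_apply] at hv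
    rw [v.ord_inv]
    by_contra hcon
    apply hv
    rw [max_eq_left (by omega)])
  rw [finrank_adjoin_inv] at h1
  refine le_trans (le_of_eq ?_) h1
  rw [degree_eq_sum, Finsupp.sum]
  refine Finset.sum_congr rfl fun v hv => ?_
  rw [Finsupp.mem_support_iff, poleDiv_apply] at hv
  rw [poleDiv_apply, v.ord_inv]
  rcases le_total 0 (- v.ord t) with h | h
  · rw [max_eq_right h]
  · exact absurd (max_eq_left h) hv

theorem degree_poleDiv [IsAlgClosed K] [IsFF1 K F] {t : F} (ht : Transcendental K t) :
    Divisor.degree (poleDiv K t) = (Module.finrank K⟮t⟯ F : ℤ) := by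
  refine le_antisymm (degree_poleDiv_le ht) ?_
  by_contra hcon
  push Not at hcon
  obtain ⟨C, hC, hl⟩ := exists_ell_ge ht
  set n := Module.finrank K⟮t⟯ F with hn
  set l : ℕ := (Divisor.degree C + 1).toNat with hlD
  have h1 := hl l
  have h2 : (0 : Divisor K F) ≤ l • poleDiv K t + C :=
    add_nonneg (nsmul_nonneg (poleDiv_nonneg t) l) hC
  have h3 := ell_le_degree_add_one h2
  rw [map_add, map_nsmul] at h3
  have h4 : ((n * (l + 1) : ℕ) : ℤ) ≤ (ell (l • poleDiv K t + C) : ℤ) := by exact_mod_cast h1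
  have h5 : Divisor.degree C + 1 ≤ l := Int.self_le_toNat _
  push_cast at h4
  simp only [nsmul_eq_mul] at h3
  have h6 : (l : ℤ) * Divisor.degree (poleDiv K t) ≤ l * ((n : ℤ) - 1) := by
    apply mul_le_mul_of_nonneg_left _ (Int.natCast_nonneg l)
    omega
  have h7 : (0 : ℤ) ≤ n := Int.natCast_nonneg n
  have h8 : 0 < n := by
    have hfin : FiniteDimensional K⟮t⟯ F := finiteDimensional_adjoin_of_transcendental ht
    exact Module.finrank_pos
  have h9 : (1 : ℤ) ≤ n := by exact_mod_cast h8
  nlinarith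

theorem divOf_eq_poleDiv_sub [IsFF1 K F] (f : F) :
    divOf K f = poleDiv K f⁻¹ - poleDiv K f := by
  ext v
  rw [Finsupp.sub_apply, divOf_apply, poleDiv_apply, poleDiv_apply, v.ord_inv, neg_neg]
  rcases le_total 0 (v.ord f) with h | h
  · rw [max_eq_right h, max_eq_left (by omega)]; ring
  · rw [max_eq_left h, max_eq_right (by omega)]; ring

theorem degree_divOf [IsAlgClosed K] [IsFF1 K F] (f : F) : Divisor.degree (divOf K f) = 0 := by
  by_cases hf : Transcendental K f
  · rw [divOf_eq_poleDiv_sub, map_sub, degree_poleDiv hf, degree_poleDiv (transcendental_inv hf),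
      finrank_adjoin_inv, sub_self]
  · have : divOf K f = 0 := by
      ext v
      rw [divOf_apply, Finsupp.zero_apply]
      by_contra hv
      exact hf (transcendental_of_ord_ne_zero v hv)
    rw [this, map_zero]

instance hasPrincipalDivisors [IsAlgClosed K] [IsFF1 K F] : HasPrincipalDivisors K F :=
  ⟨fun f _ => ⟨divOf K f, fun _ => rfl, degree_divOf f⟩⟩

theorem L_eq_bot_of_degree_neg [IsAlgClosed K] [IsFF1 K F] {D : Divisor K F}
    (h : Divisor.degree D < 0) : riemannRochSpace D = ⊥ := by
  rw [Submodule.eq_bot_iff]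
  intro f hf
  by_contra hf0
  have h1 := degree_nonneg ((mem_L_iff_divOf hf0).mp hf)
  rw [map_add, degree_divOf, add_zero] at h1
  omega

theorem ell_eq_zero_of_degree_neg [IsAlgClosed K] [IsFF1 K F] {D : Divisor K F}
    (h : Divisor.degree D < 0) : ell D = 0 := by
  rw [ell, L_eq_bot_of_degree_neg h]; simp

/-- `ℓ(D) ≤ deg D + 1` whenever `deg D ≥ -1`. -/
theorem ell_le_degree_add_one' [IsAlgClosed K] [IsFF1 K F] (D : Divisor K F)
    (h : -1 ≤ Divisor.degree D) : (ell D : ℤ) ≤ Divisor.degree D + 1 := by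
  by_cases hbot : riemannRochSpace D = ⊥
  · have : ell D = 0 := by rw [ell, hbot]; simp
    rw [this]
    push_cast
    omega
  · obtain ⟨f, hf, hf0⟩ := (Submodule.ne_bot_iff _).mp hbot
    have h1 := ell_le_degree_add_one ((mem_L_iff_divOf hf0).mp hf)
    rwa [ell_add_divOf D hf0, map_add, degree_divOf, add_zero] at h1

theorem eq_zero_of_nonneg_of_degree_eq_zero [IsAlgClosed K] [IsFF1 K F] {D : Divisor K F}
    (h0 : 0 ≤ D) (h : Divisor.degree D = 0) : D = 0 := by
  rw [degree_eq_sum, Finsupp.sum, Finset.sum_eq_zero_iff_of_nonneg (fun v _ => h0 v)] at h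
  ext v
  by_cases hv : v ∈ D.support
  · exact h v hv
  · exact Finsupp.notMem_support_iff.mp hv

/-- a degree zero divisor with a nonzero section is principal -/
theorem eq_neg_divOf_of_degree_zero [IsAlgClosed K] [IsFF1 K F] {D : Divisor K F}
    (h : Divisor.degree D = 0) {f : F} (hf : f ≠ 0) (hfD : f ∈ riemannRochSpace D) :
    D = - divOf K f := by
  have h1 := (mem_L_iff_divOf hf).mp hfD
  have h2 : Divisor.degree (D + divOf K f) = 0 := by rw [map_add, degree_divOf, h, add_zero]
  exact eq_neg_of_add_eq_zero_left (eq_zero_of_nonneg_of_degree_eq_zero h1 h2)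

end Fermat.Agent.GAL.FF
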