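import Fermat.Agent.S24.Local.Approx

/-!
# GAL / FF : approximation with exact orders  (package FF-E3)

No hypotheses on `K`, `F`: only the `ord` calculus of places and Artin-Whaples
(`S24.Local.exists_ord_neg_and_pos`).
-/

set_option autoImplicit false

namespace Fermat.Agent.GAL.FF

open AlgebraicCurve Fermat.Agent.S24.FF Fermat.Agent.S24.Local

section approx

variable {K F : Type*} [Field K] [Field F] [Algebra K F]

/-- "`y` is `m`-small at `w`". -/
def ApproxSmall (w : Place K F) (m : ℤ) (y : F) : Prop := y = 0 ∨ m ≤ w.ord y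

theorem ApproxSmall.zero (w : Place K F) (m : ℤ) : ApproxSmall w m (0 : F) := Or.inl rfl

theorem ApproxSmall.add {w : Place K F} {m : ℤ} {y z : F} (hy : ApproxSmall w m y)
    (hz : ApproxSmall w m z) : ApproxSmall w m (y + z) := by
  rcases hy with rfl | hy
  · simpa using hz
  rcases hz with rfl | hz
  · rw [add_zero]; exact Or.inr hy
  by_cases h : y + z = 0
  · exact Or.inl h
  · exact Or.inr (le_trans (le_min hy hz) (min_ord_le_ord_add w h))

theorem ApproxSmall.sum {ι : Type*} {w : Place K F} {m : ℤ} (s : Finset ι) (f : ι → F)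
    (h : ∀ i ∈ s, ApproxSmall w m (f i)) : ApproxSmall w m (∑ i ∈ s, f i) :=
  Finset.sum_induction f (ApproxSmall w m) (fun _ _ => ApproxSmall.add) (ApproxSmall.zero w m) h

theorem ApproxSmall.mul {w : Place K F} {m n : ℤ} {y x : F} (hy0 : y ≠ 0) (hy : n ≤ w.ord y)
    (hx : m ≤ n + w.ord x) : ApproxSmall w m (y * x) := by
  rcases eq_or_ne x 0 with rfl | hx0
  · exact Or.inl (mul_zero _)
  · refine Or.inr ?_
    rw [w.ord_mul hy0 hx0]
    omega

/-- an approximate idempotent: close to `1` at `v`, close to `0` on `W \ {v}`. -/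
theorem approx_exists_idem [DecidableEq (Place K F)] (W : Finset (Place K F)) (v : Place K F)
    (n : ℕ) :
    ∃ u : F, u ≠ 0 ∧ u - 1 ≠ 0 ∧ (n : ℤ) ≤ v.ord (u - 1) ∧
      ∀ w ∈ W, w ≠ v → (n : ℤ) ≤ w.ord u := by
  obtain ⟨a, hav, haW⟩ := exists_ord_neg_and_pos v (W.erase v) (Finset.notMem_erase v W)
  have ha0 : a ≠ 0 := ne_zero_of_ord_ne_zero v hav.ne
  set k : ℕ := n + 1 with hk
  have hk1 : (1 : ℤ) ≤ k := by rw [hk]; push_cast; omega
  have hkn : (n : ℤ) ≤ k := by rw [hk]; push_cast; omega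
  have hak0 : a ^ k ≠ 0 := pow_ne_zero _ ha0
  have hvk : v.ord (a ^ k) ≤ -(k : ℤ) := by
    rw [ord_pow]
    nlinarith
  have hvk' : v.ord (a ^ k) < 0 := by omega
  have h1 : v.ord (1 + a ^ k) = v.ord (a ^ k) := ord_one_add_of_neg v hvk'
  have h1ne : 1 + a ^ k ≠ 0 := by
    apply ne_zero_of_ord_ne_zero v
    rw [h1]; exact hvk'.ne
  have hsub : a ^ k * (1 + a ^ k)⁻¹ - 1 = -(1 + a ^ k)⁻¹ := by
    field_simp
    ring
  refine ⟨a ^ k * (1 + a ^ k)⁻¹, mul_ne_zero hak0 (inv_ne_zero h1ne), ?_, ?_, ?_⟩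
  · rw [hsub]
    exact neg_ne_zero.2 (inv_ne_zero h1ne)
  · rw [hsub, ord_neg, v.ord_inv, h1]
    omega
  · intro w hw hwv
    have hwa : 0 < w.ord a := haW w (Finset.mem_erase.2 ⟨hwv, hw⟩)
    have hwk : (k : ℤ) ≤ w.ord (a ^ k) := by
      rw [ord_pow]
      nlinarith
    have hwk' : 0 < w.ord (a ^ k) := by omega
    rw [w.ord_mul hak0 (inv_ne_zero h1ne), w.ord_inv, ord_one_add_of_pos w hwk']
    omega

/-- (FF-E3) weak approximation. -/
theorem exists_approx (W : Finset (Place K F)) (x : Place K F → F) (m : ℤ) :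
    ∃ z : F, ∀ w ∈ W, z = x w ∨ m ≤ w.ord (z - x w) := by
  classical
  -- a bound for all the orders involved
  set B : ℕ := ∑ v ∈ W, ∑ w ∈ W, (w.ord (x v)).natAbs with hB
  have hBle : ∀ v ∈ W, ∀ w ∈ W, -(B : ℤ) ≤ w.ord (x v) := by
    intro v hv w hw
    have h1 : (w.ord (x v)).natAbs ≤ ∑ w ∈ W, (w.ord (x v)).natAbs :=
      Finset.single_le_sum (f := fun w : Place K F => (w.ord (x v)).natAbs)
        (fun _ _ => Nat.zero_le _) hw
    have h2 : ∑ w ∈ W, (w.ord (x v)).natAbs ≤ B :=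
      Finset.single_le_sum (f := fun v : Place K F => ∑ w ∈ W, (w.ord (x v)).natAbs)
        (fun _ _ => Nat.zero_le _) hv
    have h3 : ((w.ord (x v)).natAbs : ℤ) ≤ B := by exact_mod_cast h1.trans h2
    have h4 : - w.ord (x v) ≤ ((w.ord (x v)).natAbs : ℤ) := by
      rw [Int.natCast_natAbs]; exact neg_le_abs _
    omega
  set n : ℕ := m.natAbs + B with hn
  have hnm : m ≤ (n : ℤ) - B := by
    have h1 : m ≤ (m.natAbs : ℤ) := by rw [Int.natCast_natAbs]; exact le_abs_self _
    have h2 : (n : ℤ) = (m.natAbs : ℤ) + B := by rw [hn]; exact Nat.cast_add _ _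
    omega
  choose u hu0 hu1 huv huW using fun v : Place K F => approx_exists_idem W v n
  refine ⟨∑ v ∈ W, u v * x v, ?_⟩
  intro w hw
  have key : ApproxSmall w m (∑ v ∈ W, u v * x v - x w) := by
    have h1 : ∑ v ∈ W, u v * x v - x w =
        ∑ v ∈ W, (u v * x v - if v = w then x w else 0) := by
      rw [Finset.sum_sub_distrib, Finset.sum_ite_eq' W w (fun _ => x w), if_pos hw]
    rw [h1]
    refine ApproxSmall.sum W _ ?_
    intro v hv
    by_cases hvw : v = w
    · subst hvw
      rw [if_pos rfl]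
      have h2 : u v * x v - x v = (u v - 1) * x v := by ring
      rw [h2]
      refine ApproxSmall.mul (hu1 v) (huv v) ?_
      have := hBle v hv v hv
      omega
    · rw [if_neg hvw, sub_zero]
      refine ApproxSmall.mul (hu0 v) (huW v w hw (fun h => hvw h.symm)) ?_
      have := hBle v hv w hw
      omega
  rcases key with h | h
  · exact Or.inl (sub_eq_zero.1 h)
  · exact Or.inr h

/-- (FF-E3) prescribed exact orders at finitely many places. -/
theorem exists_ord_eq (W : Finset (Place K F)) (a : Place K F → ℤ) :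
    ∃ z : F, z ≠ 0 ∧ ∀ w ∈ W, w.ord z = a w := by
  classical
  rcases W.eq_empty_or_nonempty with rfl | hWne
  · exact ⟨1, one_ne_zero, by simp⟩
  choose π hπ using fun w : Place K F => exists_ord_eq_one w
  have hπ0 : ∀ w : Place K F, π w ≠ 0 := fun w =>
    ne_zero_of_ord_ne_zero w (by rw [hπ w]; exact one_ne_zero)
  set x : Place K F → F := fun w => π w ^ (a w) with hx
  have hx0 : ∀ w, x w ≠ 0 := fun w => zpow_ne_zero _ (hπ0 w)
  have hxo : ∀ w : Place K F, w.ord (x w) = a w := by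
    intro w
    rw [hx]
    simp only
    rw [w.ord_zpow, hπ w, mul_one]
  set m : ℤ := 1 + ∑ w ∈ W, ((a w).natAbs : ℤ) with hm
  have ham : ∀ w ∈ W, a w < m := by
    intro w hw
    have h1 : ((a w).natAbs : ℤ) ≤ ∑ w ∈ W, ((a w).natAbs : ℤ) :=
      Finset.single_le_sum (f := fun w : Place K F => ((a w).natAbs : ℤ))
        (fun _ _ => Int.natCast_nonneg _) hw
    have h2 : a w ≤ ((a w).natAbs : ℤ) := by rw [Int.natCast_natAbs]; exact le_abs_self _
    omega
  obtain ⟨z, hz⟩ := exists_approx W x m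
  have hord : ∀ w ∈ W, z ≠ 0 ∧ w.ord z = a w := by
    intro w hw
    rcases hz w hw with h | h
    · rw [h]; exact ⟨hx0 w, hxo w⟩
    · have hne : z - x w ≠ 0 := by
        intro h0
        rw [h0, Place.ord_zero] at h
        -- then `m ≤ 0`, impossible
        have hm1 : (1 : ℤ) ≤ m := by
          have : (0 : ℤ) ≤ ∑ w ∈ W, ((a w).natAbs : ℤ) :=
            Finset.sum_nonneg (fun _ _ => Int.natCast_nonneg _)
          omega
        omega
      have h1 : w.ord (x w + (z - x w)) = w.ord (x w) :=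
        ord_add_eq_of_lt w (hx0 w) hne (by rw [hxo w]; exact lt_of_lt_of_le (ham w hw) h)
      have h2 : x w + (z - x w) = z := by ring
      rw [h2, hxo w] at h1
      refine ⟨?_, h1⟩
      rintro rfl
      rw [zero_sub, ord_neg, hxo w] at h
      exact absurd (ham w hw) (not_lt.2 h)
  obtain ⟨w0, hw0⟩ := hWne
  exact ⟨z, (hord w0 hw0).1, fun w hw => (hord w hw).2⟩

end approx

end Fermat.Agent.GAL.FF
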