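import Fermat.Agent.GAL.FF.Places

/-!
# GAL / FF : `∑ ord_v t ≤ [F : K(t)]`, finiteness of zeros and poles, `divOf`  (package FF-R2)

Any characteristic.  Reference: Stichtenoth 1.3.3, 1.3.4 (with all residue degrees ignored).
-/

set_option autoImplicit false

namespace Fermat.Agent.GAL.FF

open AlgebraicCurve IntermediateField Fermat.Agent.S24.FF

variable {K F : Type*} [Field K] [Field F] [Algebra K F]

/-- Strong-enough approximation: prescribed exact order at `v`, large order on `W`. -/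
theorem exists_ord_eq_and_ge (v : Place K F) (W : Finset (Place K F)) (hv : v ∉ W) (a m : ℤ) :
    ∃ z : F, z ≠ 0 ∧ v.ord z = a ∧ ∀ w ∈ W, m ≤ w.ord z := by
  obtain ⟨a₀, ha₀, ha₀W⟩ := Fermat.Agent.S24.Local.exists_ord_neg_and_pos v W hv
  obtain ⟨π, hπ⟩ := exists_ord_eq_one v
  have hπ0 : π ≠ 0 := ne_zero_of_ord_ne_zero v (by rw [hπ]; norm_num)
  have ha₀0 : a₀ ≠ 0 := ne_zero_of_ord_ne_zero v ha₀.ne
  have h1 : 1 + a₀ ≠ 0 := by
    apply ne_zero_of_ord_ne_zero v
    rw [Fermat.Agent.S24.Local.ord_one_add_of_neg v ha₀]; exact ha₀.ne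
  set b : F := a₀ * (1 + a₀)⁻¹ with hb
  have hb0 : b ≠ 0 := mul_ne_zero ha₀0 (inv_ne_zero h1)
  have hbv : v.ord b = 0 := by
    rw [hb, v.ord_mul ha₀0 (inv_ne_zero h1), v.ord_inv,
      Fermat.Agent.S24.Local.ord_one_add_of_neg v ha₀]
    ring
  have hbw : ∀ w ∈ W, 0 < w.ord b := by
    intro w hw
    rw [hb, w.ord_mul ha₀0 (inv_ne_zero h1), w.ord_inv,
      Fermat.Agent.S24.Local.ord_one_add_of_pos w (ha₀W w hw)]
    simpa using ha₀W w hw
  set M : ℕ := ∑ w ∈ W, (m - a * w.ord π).natAbs with hM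
  refine ⟨π ^ a * b ^ M, mul_ne_zero (zpow_ne_zero _ hπ0) (pow_ne_zero _ hb0), ?_, ?_⟩
  · rw [v.ord_mul (zpow_ne_zero _ hπ0) (pow_ne_zero _ hb0), v.ord_zpow, ord_pow, hπ, hbv]
    ring
  · intro w hw
    rw [w.ord_mul (zpow_ne_zero _ hπ0) (pow_ne_zero _ hb0), w.ord_zpow, ord_pow]
    have h2 : (m - a * w.ord π).natAbs ≤ M :=
      Finset.single_le_sum (f := fun w : Place K F => (m - a * w.ord π).natAbs)
        (fun _ _ => Nat.zero_le _) hw
    have h3 : m - a * w.ord π ≤ ((m - a * w.ord π).natAbs : ℤ) := by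
      rw [Int.natCast_natAbs]; exact le_abs_self _
    have h4 : ((m - a * w.ord π).natAbs : ℤ) ≤ M := by exact_mod_cast h2
    have h5 : (M : ℤ) ≤ M * w.ord b := by
      have := hbw w hw
      nlinarith [Int.natCast_nonneg M]
    omega

/-- `x = 0` or `n ≤ ord_v x` is stable under finite sums. -/
theorem ord_sum_ge (v : Place K F) (n : ℤ) {ι : Type*} (s : Finset ι) (f : ι → F)
    (h : ∀ i ∈ s, f i = 0 ∨ n ≤ v.ord (f i)) :
    ∑ i ∈ s, f i = 0 ∨ n ≤ v.ord (∑ i ∈ s, f i) := by
  have key : ∀ x : F, (x = 0 ∨ n ≤ v.ord x) ↔ v.adicValuation x ≤ WithZero.exp (-n) := by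
    intro x
    rw [v.adicValuation_le_exp_iff, neg_neg]
  rw [key]
  exact Valuation.map_sum_le _ fun i hi => (key _).mp (h i hi)

/-- polynomials in `t` are regular at a zero of `t`. -/
theorem ord_aeval_nonneg (v : Place K F) {t : F} (ht : 0 ≤ v.ord t) (p : Polynomial K) :
    0 ≤ v.ord (Polynomial.aeval t p) := by
  have hmem : t ∈ v.toValuationSubring := mem_toValuationSubring_of_ord_nonneg v ht
  apply ord_nonneg_of_mem
  rw [Polynomial.aeval_eq_sum_range]
  refine sum_mem fun i _ => ?_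
  rw [Algebra.smul_def]
  exact mul_mem (v.algebraMap_mem' _) (pow_mem hmem i)

/-- a polynomial in `t` with nonzero constant term is a unit at a zero of `t`. -/
theorem ord_aeval_eq_zero (v : Place K F) {t : F} (ht : 0 < v.ord t) {p : Polynomial K}
    (hp : p.coeff 0 ≠ 0) : Polynomial.aeval t p ≠ 0 ∧ v.ord (Polynomial.aeval t p) = 0 := by
  have ht0 : t ≠ 0 := ne_zero_of_ord_ne_zero v ht.ne'
  have hc0 : algebraMap K F (p.coeff 0) ≠ 0 := by simpa using hp
  have e : Polynomial.aeval t p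
      = algebraMap K F (p.coeff 0) + Polynomial.aeval t p.divX * t := by
    conv_lhs => rw [← Polynomial.divX_mul_X_add p]
    simp [add_comm]
  rcases eq_or_ne (Polynomial.aeval t p.divX) 0 with h0 | h0
  · rw [e, h0, zero_mul, add_zero]
    exact ⟨hc0, ord_algebraMap v _⟩
  · have h1 : v.ord (algebraMap K F (p.coeff 0)) < v.ord (Polynomial.aeval t p.divX * t) := by
      rw [ord_algebraMap, v.ord_mul h0 ht0]
      have := ord_aeval_nonneg v ht.le p.divX
      omega
    have h2 := ord_add_eq_of_lt v hc0 (mul_ne_zero h0 ht0) h1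
    rw [← e, ord_algebraMap] at h2
    refine ⟨?_, h2⟩
    intro h3
    -- `c = - (…) * t` would have positive order
    rw [e] at h3
    have h4 : algebraMap K F (p.coeff 0) = -(Polynomial.aeval t p.divX * t) :=
      eq_neg_of_add_eq_zero_left h3
    rw [h4, ord_neg] at h1
    exact lt_irrefl _ h1

section indep

variable {t : F} {W : Finset (Place K F)}

/-- one descent step for the linear independence. -/
theorem X_dvd_of_sum_eq_zero (hW : ∀ v ∈ W, 0 < v.ord t)
    (z : (Σ v : {v // v ∈ W}, Fin (v.1.ord t).toNat) → F)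
    (hz0 : ∀ i, z i ≠ 0)
    (hz1 : ∀ i : (Σ v : {v // v ∈ W}, Fin (v.1.ord t).toNat), i.1.1.ord (z i) = (i.2 : ℕ))
    (hz2 : ∀ i : (Σ v : {v // v ∈ W}, Fin (v.1.ord t).toNat),
      ∀ w ∈ W, w ≠ i.1.1 → w.ord t ≤ w.ord (z i))
    (c : (Σ v : {v // v ∈ W}, Fin (v.1.ord t).toNat) → Polynomial K)
    (hc : ∑ i, Polynomial.aeval t (c i) * z i = 0) (i) : (c i).coeff 0 = 0 := by
  classical
  by_contra hne
  obtain ⟨v, a₁⟩ := i
  -- minimal `a` with nonzero constant coefficient
  have hex : ∃ n : ℕ, ∃ h : n < (v.1.ord t).toNat, (c ⟨v, ⟨n, h⟩⟩).coeff 0 ≠ 0 :=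
    ⟨a₁, a₁.2, hne⟩
  obtain ⟨ha, hca⟩ := Nat.find_spec hex
  have hmin : ∀ n : ℕ, n < Nat.find hex → ∀ h : n < (v.1.ord t).toNat,
      (c ⟨v, ⟨n, h⟩⟩).coeff 0 = 0 := by
    intro n hn h
    by_contra hcon
    exact Nat.find_min hex hn ⟨h, hcon⟩
  set a : ℕ := Nat.find hex with haD
  set i₀ : (Σ v : {v // v ∈ W}, Fin (v.1.ord t).toNat) := ⟨v, ⟨a, ha⟩⟩ with hi₀
  have hvt : 0 < v.1.ord t := hW v.1 v.2
  have ht0 : t ≠ 0 := ne_zero_of_ord_ne_zero v.1 hvt.ne'
  have hae : (a : ℤ) < v.1.ord t := by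
    have : (a : ℤ) < ((v.1.ord t).toNat : ℤ) := by exact_mod_cast ha
    rwa [Int.toNat_of_nonneg hvt.le] at this
  obtain ⟨hm0, hm1⟩ := ord_aeval_eq_zero v.1 hvt hca
  have hmain : v.1.ord (Polynomial.aeval t (c i₀) * z i₀) = a := by
    rw [v.1.ord_mul hm0 (hz0 i₀), hm1, zero_add]
    exact hz1 i₀
  have hmain0 : Polynomial.aeval t (c i₀) * z i₀ ≠ 0 := mul_ne_zero hm0 (hz0 i₀)
  have hrest : ∀ j ∈ Finset.univ.erase i₀, Polynomial.aeval t (c j) * z j = 0 ∨
      (a : ℤ) + 1 ≤ v.1.ord (Polynomial.aeval t (c j) * z j) := by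
    intro j hj
    have hji : j ≠ i₀ := Finset.ne_of_mem_erase hj
    rcases eq_or_ne (Polynomial.aeval t (c j)) 0 with h0 | h0
    · left; rw [h0, zero_mul]
    right
    rw [v.1.ord_mul h0 (hz0 j)]
    have hnn := ord_aeval_nonneg v.1 hvt.le (c j)
    obtain ⟨w, b⟩ := j
    by_cases hwv : w = v
    · subst hwv
      have hzb : w.1.ord (z ⟨w, b⟩) = (b : ℕ) := hz1 ⟨w, b⟩
      rw [hzb]
      rcases lt_trichotomy (b : ℕ) a with hlt | heq | hgt
      · -- constant coefficient vanishes
        have hcb : (c ⟨w, b⟩).coeff 0 = 0 := hmin b hlt b.2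
        have e : Polynomial.aeval t (c ⟨w, b⟩)
            = Polynomial.aeval t (c ⟨w, b⟩).divX * t := by
          conv_lhs => rw [← Polynomial.divX_mul_X_add (c ⟨w, b⟩), hcb]
          simp
        have h1 : Polynomial.aeval t (c ⟨w, b⟩).divX ≠ 0 := by
          intro h1
          rw [e, h1, zero_mul] at h0
          exact h0 rfl
        rw [e, w.1.ord_mul h1 ht0]
        have := ord_aeval_nonneg w.1 hvt.le (c ⟨w, b⟩).divX
        omega
      · exfalso
        apply hji
        rw [hi₀]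
        congr 1
        exact Fin.ext heq
      · have : (a : ℤ) + 1 ≤ (b : ℕ) := by exact_mod_cast hgt
        omega
    · have hne' : v.1 ≠ w.1 := fun h => hwv (Subtype.ext h.symm)
      have := hz2 ⟨w, b⟩ v.1 v.2 hne'
      omega
  have hsum := ord_sum_ge v.1 ((a : ℤ) + 1) (Finset.univ.erase i₀) _ hrest
  rw [← Finset.add_sum_erase Finset.univ _ (Finset.mem_univ i₀)] at hc
  have hr : ∑ j ∈ Finset.univ.erase i₀, Polynomial.aeval t (c j) * z j
      = -(Polynomial.aeval t (c i₀) * z i₀) := eq_neg_of_add_eq_zero_right hc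
  rw [hr, ord_neg, hmain] at hsum
  rcases hsum with h | h
  · exact hmain0 (neg_eq_zero.mp h)
  · omega

theorem eq_zero_of_sum_eq_zero (hW : ∀ v ∈ W, 0 < v.ord t)
    (z : (Σ v : {v // v ∈ W}, Fin (v.1.ord t).toNat) → F)
    (hz0 : ∀ i, z i ≠ 0)
    (hz1 : ∀ i : (Σ v : {v // v ∈ W}, Fin (v.1.ord t).toNat), i.1.1.ord (z i) = (i.2 : ℕ))
    (hz2 : ∀ i : (Σ v : {v // v ∈ W}, Fin (v.1.ord t).toNat),
      ∀ w ∈ W, w ≠ i.1.1 → w.ord t ≤ w.ord (z i))
    (c : (Σ v : {v // v ∈ W}, Fin (v.1.ord t).toNat) → Polynomial K)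
    (hc : ∑ i, Polynomial.aeval t (c i) * z i = 0) (i) : c i = 0 := by
  have ht0 : t ≠ 0 := ne_zero_of_ord_ne_zero i.1.1 (hW i.1.1 i.1.2).ne'
  have key : ∀ n : ℕ, ∀ c : (Σ v : {v // v ∈ W}, Fin (v.1.ord t).toNat) → Polynomial K,
      ∑ i, Polynomial.aeval t (c i) * z i = 0 → ∀ i, Polynomial.X ^ n ∣ c i := by
    intro n
    induction n with
    | zero => intro c _ i; simp
    | succ n ih =>
      intro c hc i
      have h0 := X_dvd_of_sum_eq_zero hW z hz0 hz1 hz2 c hc
      have e : ∀ j, c j = (c j).divX * Polynomial.X := by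
        intro j
        conv_lhs => rw [← Polynomial.divX_mul_X_add (c j), h0 j]
        simp
      have hc' : ∑ j, Polynomial.aeval t (c j).divX * z j = 0 := by
        have : (∑ j, Polynomial.aeval t (c j).divX * z j) * t = 0 := by
          rw [Finset.sum_mul, ← hc]
          refine Finset.sum_congr rfl fun j _ => ?_
          conv_rhs => rw [e j]
          simp only [map_mul, Polynomial.aeval_X]
          ring
        exact (mul_eq_zero.mp this).resolve_right ht0
      rw [e i, pow_succ]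
      exact mul_dvd_mul_right (ih _ hc' i) _
  refine Polynomial.eq_zero_of_dvd_of_natDegree_lt (key ((c i).natDegree + 1) c hc i) ?_
  rw [Polynomial.natDegree_X_pow]
  exact Nat.lt_succ_self _

end indep

open scoped IntermediateField.algebraAdjoinAdjoin in
/-- Proof: with `e_v = ord_v t`, choose `z_{v,a}` (`v ∈ W`, `0 ≤ a < e_v`) with `ord_v z_{v,a} = a`,
`ord_w z_{v,a} ≥ e_w` for `w ∈ W \ {v}`; they are linearly independent over `K(t)`. -/
theorem sum_ord_le_finrank [IsFF1 K F] {t : F} (ht : Transcendental K t)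
    (W : Finset (Place K F)) (hW : ∀ v ∈ W, 0 < v.ord t) :
    ∑ v ∈ W, v.ord t ≤ (Module.finrank K⟮t⟯ F : ℤ) := by
  classical
  have hfin : FiniteDimensional K⟮t⟯ F := finiteDimensional_adjoin_of_transcendental ht
  set m : ℤ := ∑ w ∈ W, w.ord t with hm
  have hle : ∀ w ∈ W, w.ord t ≤ m := fun w hw =>
    Finset.single_le_sum (f := fun w : Place K F => w.ord t) (fun u hu => (hW u hu).le) hw
  have hch : ∀ i : (Σ v : {v // v ∈ W}, Fin (v.1.ord t).toNat), ∃ z : F, z ≠ 0 ∧
      i.1.1.ord z = ((i.2 : ℕ) : ℤ) ∧ ∀ w ∈ W.erase i.1.1, m ≤ w.ord z := fun i =>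
    exists_ord_eq_and_ge i.1.1 (W.erase i.1.1) (Finset.notMem_erase _ _) _ _
  choose z hz0 hz1 hz2 using hch
  have hz2' : ∀ i, ∀ w ∈ W, w ≠ i.1.1 → w.ord t ≤ w.ord (z i) := fun i w hw hne =>
    (hle w hw).trans (hz2 i w (Finset.mem_erase.mpr ⟨hne, hw⟩))
  have hli : LinearIndependent K⟮t⟯ z := by
    rw [← LinearIndependent.iff_fractionRing (Algebra.adjoin K {t}) K⟮t⟯,
      Fintype.linearIndependent_iff]
    intro g hg i
    have hex : ∀ j, ∃ p : Polynomial K, Polynomial.aeval t p = (g j : F) := by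
      intro j
      have h2 : (g j : F) ∈ (Polynomial.aeval (R := K) t).range := by
        rw [← Algebra.adjoin_singleton_eq_range_aeval]
        exact (g j).2
      exact h2
    choose c hc using hex
    have hsum : ∑ j, Polynomial.aeval t (c j) * z j = 0 := by
      rw [← hg]
      refine Finset.sum_congr rfl fun j _ => ?_
      rw [hc j]
      rfl
    have := eq_zero_of_sum_eq_zero hW z hz0 hz1 hz2' c hsum i
    apply Subtype.ext
    rw [← hc i, this]
    simp
  have hcard := hli.fintype_card_le_finrank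
  rw [Fintype.card_sigma] at hcard
  simp only [Fintype.card_fin] at hcard
  have h1 : ∑ v ∈ W, v.ord t = ((∑ v : {v // v ∈ W}, (v.1.ord t).toNat : ℕ) : ℤ) := by
    rw [Nat.cast_sum, ← Finset.sum_coe_sort W]
    refine Finset.sum_congr rfl fun v _ => ?_
    rw [Int.toNat_of_nonneg (hW v.1 v.2).le]
  rw [hm, h1]
  exact_mod_cast hcard

theorem finite_zeros' [IsFF1 K F] {f : F} (hf : Transcendental K f) :
    {v : Place K F | 0 < v.ord f}.Finite := by
  by_contra hinf
  obtain ⟨W, hW, hcard⟩ :=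
    Set.Infinite.exists_subset_card_eq hinf (Module.finrank K⟮f⟯ F + 1)
  have h1 := sum_ord_le_finrank hf W (fun v hv => hW hv)
  have h2 : (W.card : ℤ) ≤ ∑ v ∈ W, v.ord f := by
    have : ∑ v ∈ W, (1 : ℤ) ≤ ∑ v ∈ W, v.ord f :=
      Finset.sum_le_sum fun v hv => (hW hv : 0 < v.ord f)
    simpa using this
  rw [hcard] at h2
  push_cast at h2
  omega

theorem finite_support_ord [IsFF1 K F] (f : F) : {v : Place K F | v.ord f ≠ 0}.Finite := by
  by_cases hf : Transcendental K f
  · have h1 := finite_zeros' hf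
    have h2 := finite_zeros' (transcendental_inv hf)
    refine (h1.union h2).subset ?_
    intro v hv
    rcases lt_or_gt_of_ne (hv : v.ord f ≠ 0) with h | h
    · right
      show 0 < v.ord f⁻¹
      rw [v.ord_inv]; omega
    · left; exact h
  · have : {v : Place K F | v.ord f ≠ 0} = ∅ := by
      ext v
      simp only [Set.mem_ofPred_eq, Set.mem_empty_iff_false, iff_false]
      intro hv
      exact hf (transcendental_of_ord_ne_zero v hv)
    rw [this]
    exact Set.finite_empty

variable (K) in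
/-- The divisor of `f` (`0` for `f = 0`). -/
noncomputable def divOf [IsFF1 K F] (f : F) : Divisor K F :=
  Finsupp.ofSupportFinite (fun v => v.ord f) (finite_support_ord f)

@[simp] theorem divOf_apply [IsFF1 K F] (f : F) (v : Place K F) : divOf K f v = v.ord f := rfl

theorem divOf_mul [IsFF1 K F] {f g : F} (hf : f ≠ 0) (hg : g ≠ 0) :
    divOf K (f * g) = divOf K f + divOf K g := by
  ext v; simp [v.ord_mul hf hg]

theorem divOf_inv [IsFF1 K F] (f : F) : divOf K f⁻¹ = - divOf K f := by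
  ext v; simp [v.ord_inv]

theorem degree_eq_sum [IsAlgClosed K] [IsFF1 K F] (D : Divisor K F) :
    Divisor.degree D = D.sum fun _ n => n := by
  have h1 : Divisor.degree D = D.sum fun v n => n * (v.deg : ℤ) := by
    simp [Divisor.degree, Finsupp.liftAddHom_apply]
  rw [h1]
  refine Finsupp.sum_congr fun v _ => ?_
  rw [deg_eq_one v]; simp

theorem degree_single_one [IsAlgClosed K] [IsFF1 K F] (v : Place K F) (n : ℤ) :
    Divisor.degree (Finsupp.single v n) = n := by
  rw [Divisor.degree_single, deg_eq_one]; simp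

theorem degree_nonneg [IsAlgClosed K] [IsFF1 K F] {D : Divisor K F} (h : 0 ≤ D) :
    0 ≤ Divisor.degree D := by
  rw [degree_eq_sum]
  exact Finset.sum_nonneg fun v _ => h v

/-- monotonicity of the degree -/
theorem degree_mono [IsAlgClosed K] [IsFF1 K F] {D D' : Divisor K F} (h : D ≤ D') :
    Divisor.degree D ≤ Divisor.degree D' := by
  have h1 : 0 ≤ Divisor.degree (D' - D) := degree_nonneg (sub_nonneg.mpr h)
  rw [map_sub] at h1
  omega

/-- induction principle: `D ≤ D'` is reached by adding single places. -/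
theorem le_induction {P : Divisor K F → Prop} {D : Divisor K F} (h0 : P D)
    (hs : ∀ (E : Divisor K F) (v : Place K F), D ≤ E → P E → P (E + Finsupp.single v 1))
    {D' : Divisor K F} (h : D ≤ D') : P D' := by
  classical
  have key : ∀ E : Place K F →₀ ℕ, ∀ D₁ : Divisor K F, D ≤ D₁ → P D₁ →
      P (D₁ + E.mapRange (Nat.cast : ℕ → ℤ) Nat.cast_zero) := by
    intro E
    induction E using Finsupp.induction_linear with
    | zero => intro D₁ _ h1; simpa using h1
    | add f g hf hg =>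
      intro D₁ hD₁ h1
      rw [Finsupp.mapRange_add (by intro a b; push_cast; ring), ← add_assoc]
      refine hg _ (hD₁.trans ?_) (hf D₁ hD₁ h1)
      intro v
      simp
    | single v n =>
      intro D₁ hD₁ h1
      rw [Finsupp.mapRange_single]
      induction n with
      | zero => simpa using h1
      | succ n ih =>
        have e : D₁ + Finsupp.single v ((n + 1 : ℕ) : ℤ)
            = (D₁ + Finsupp.single v (n : ℤ)) + Finsupp.single v 1 := by
          rw [add_assoc, ← Finsupp.single_add]; push_cast; rfl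
        rw [e]
        refine hs _ v (hD₁.trans ?_) ih
        intro w
        simp only [Finsupp.coe_add, Pi.add_apply, le_add_iff_nonneg_right]
        rw [Finsupp.single_apply]
        split_ifs <;> simp
  have e : D' = D + ((D' - D).mapRange Int.toNat rfl).mapRange (Nat.cast : ℕ → ℤ)
      Nat.cast_zero := by
    ext v
    have : 0 ≤ D' v - D v := sub_nonneg.mpr (h v)
    simp [Int.toNat_of_nonneg this]
  rw [e]
  exact key _ D le_rfl h0

end Fermat.Agent.GAL.FF
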