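import Mathlib
import Fermat.Prelude.Def_AlgebraicCurve_Repartitions
import Fermat.Agent.S24.FF.Residue
import Fermat.Agent.S24.Local.Approx

/-!
# GAL / FF : places of a function field of one variable, ANY characteristic  (package FF-R1)

`IsFF1 K F` : `F` is finite over some `K(t)`, `t` transcendental.  No separability, no char. hypothesis.
Reference: Stichtenoth, *Algebraic function fields and codes*, 1.1.6, 1.1.19.
-/

set_option autoImplicit false
set_option linter.style.haveILetI false

namespace Fermat.Agent.GAL.FF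

open AlgebraicCurve IntermediateField Fermat.Agent.S24.FF Polynomial

variable {K F : Type*} [Field K] [Field F] [Algebra K F]

theorem places_aeval_mem (O : ValuationSubring F) (hK : ∀ a : K, algebraMap K F a ∈ O) {x : F}
    (hx : x ∈ O) (g : K[X]) : aeval x g ∈ O := by
  induction g using Polynomial.induction_on with
  | C a => simpa using hK a
  | add p q hp hq => rw [map_add]; exact O.add_mem _ _ hp hq
  | monomial n a _ =>
    rw [map_mul, map_pow, aeval_X, aeval_C]
    exact O.mul_mem _ _ (hK a) (pow_mem hx _)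

theorem places_valuation_algebraMap (O : ValuationSubring F) (hK : ∀ a : K, algebraMap K F a ∈ O)
    {a : K} (ha : a ≠ 0) : O.valuation (algebraMap K F a) = 1 := by
  have h1 : O.valuation (algebraMap K F a) ≤ 1 := (O.valuation_le_one_iff _).2 (hK a)
  have h2 : O.valuation (algebraMap K F a⁻¹) ≤ 1 := (O.valuation_le_one_iff _).2 (hK a⁻¹)
  have h3 : O.valuation (algebraMap K F a) * O.valuation (algebraMap K F a⁻¹) = 1 := by
    rw [← map_mul, ← map_mul, mul_inv_cancel₀ ha, map_one, map_one]
  refine le_antisymm h1 ?_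
  calc (1 : O.ValueGroup) = O.valuation (algebraMap K F a) * O.valuation (algebraMap K F a⁻¹) :=
        h3.symm
    _ ≤ O.valuation (algebraMap K F a) * 1 := by gcongr
    _ = _ := mul_one _

theorem places_valuation_aeval (O : ValuationSubring F) (hK : ∀ a : K, algebraMap K F a ∈ O)
    {x : F} (hx : O.valuation x < 1) (r : K[X]) (hr : r ≠ 0) :
    ∃ m : ℕ, O.valuation (aeval x r) = O.valuation x ^ m := by
  have hxO : x ∈ O := (O.valuation_le_one_iff _).1 hx.le
  induction hn : r.natDegree using Nat.strong_induction_on generalizing r with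
  | _ n ih =>
    have hdec : aeval x r = aeval x r.divX * x + algebraMap K F (r.coeff 0) := by
      conv_lhs => rw [← Polynomial.divX_mul_X_add r]
      simp
    by_cases h0 : r.coeff 0 = 0
    · have hd : r.divX ≠ 0 := by
        intro hd
        apply hr
        rw [← Polynomial.divX_mul_X_add r, hd, h0]
        simp
      have hdeg : r.divX.natDegree < n := by
        rw [Polynomial.natDegree_divX_eq_natDegree_tsub_one, hn]
        have : r.natDegree ≠ 0 := by
          intro h
          rw [Polynomial.eq_C_of_natDegree_eq_zero h, h0] at hr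
          simp at hr
        omega
      obtain ⟨m, hm⟩ := ih _ hdeg r.divX hd rfl
      refine ⟨m + 1, ?_⟩
      rw [hdec, h0, map_zero, add_zero, map_mul, hm, pow_succ]
    · refine ⟨0, ?_⟩
      rw [pow_zero, hdec]
      have h1 : O.valuation (algebraMap K F (r.coeff 0)) = 1 :=
        places_valuation_algebraMap O hK h0
      have h2 : O.valuation (aeval x r.divX * x) < 1 := by
        rw [map_mul]
        have := (O.valuation_le_one_iff _).2 (places_aeval_mem O hK hxO r.divX)
        calc O.valuation (aeval x r.divX) * O.valuation x ≤ 1 * O.valuation x := by gcongr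
          _ = O.valuation x := one_mul _
          _ < 1 := hx
      rw [Valuation.map_add_eq_of_lt_right _ (by rw [h1]; exact h2), h1]

theorem places_valuation_adjoin (O : ValuationSubring F) (hK : ∀ a : K, algebraMap K F a ∈ O)
    {x : F} (hx : O.valuation x < 1) (hx0 : x ≠ 0) (φ : K⟮x⟯) (hφ : φ ≠ 0) :
    ∃ m : ℤ, O.valuation (φ : F) = O.valuation x ^ m := by
  obtain ⟨r, s, hrs⟩ := (IntermediateField.mem_adjoin_simple_iff K (φ : F)).1 φ.2
  have hφ' : (φ : F) ≠ 0 := by simpa using hφ
  have hr : r ≠ 0 := by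
    rintro rfl
    apply hφ'
    rw [hrs]; simp
  have hs : s ≠ 0 := by
    rintro rfl
    apply hφ'
    rw [hrs]; simp
  obtain ⟨m, hm⟩ := places_valuation_aeval O hK hx r hr
  obtain ⟨k, hk⟩ := places_valuation_aeval O hK hx s hs
  refine ⟨(m : ℤ) - k, ?_⟩
  have hv0 : O.valuation x ≠ 0 := (Valuation.ne_zero_iff _).2 hx0
  rw [hrs, map_div₀, hm, hk, zpow_sub₀ hv0, zpow_natCast, zpow_natCast]

theorem places_transcendental (O : ValuationSubring F)
    (hK : ∀ a : K, algebraMap K F a ∈ O) {s : F} (hs : s ∈ O) (hs' : s⁻¹ ∉ O) :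
    Transcendental K s := by
  intro halg
  apply hs'
  have h1 : K⟮s⟯.toSubalgebra = Algebra.adjoin K {s} :=
    IntermediateField.adjoin_simple_toSubalgebra_of_isAlgebraic halg
  have h2 : s⁻¹ ∈ K⟮s⟯.toSubalgebra :=
    (IntermediateField.mem_toSubalgebra _ _).mpr
      (inv_mem (IntermediateField.mem_adjoin_simple_self K s))
  rw [h1, Algebra.adjoin_singleton_eq_range_aeval] at h2
  obtain ⟨g, hg⟩ := h2
  rw [← hg]
  exact places_aeval_mem O hK hs g

theorem places_sum_ne_zero {Γ : Type*} [LinearOrderedCommGroupWithZero Γ] (v : Valuation F Γ)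
    {ι : Type*} (s : Finset ι) (y : ι → F) (hne : ∃ i ∈ s, y i ≠ 0)
    (hinj : ∀ i ∈ s, ∀ j ∈ s, y i ≠ 0 → y j ≠ 0 → v (y i) = v (y j) → i = j) :
    ∑ i ∈ s, y i ≠ 0 := by
  classical
  obtain ⟨i, hi, hyi⟩ := hne
  obtain ⟨i₀, hi₀, hmax⟩ := Finset.exists_max_image s (fun i => v (y i)) ⟨i, hi⟩
  have hpos : v (y i₀) ≠ 0 := by
    intro h0
    have := hmax i hi
    simp only [h0] at this
    exact (Valuation.ne_zero_iff v).2 hyi (le_antisymm this zero_le)
  have hy0 : y i₀ ≠ 0 := (Valuation.ne_zero_iff v).1 hpos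
  have hlt : v (∑ j ∈ s.erase i₀, y j) < v (y i₀) := by
    refine Valuation.map_sum_lt v hpos ?_
    intro j hj
    have hjs := Finset.mem_of_mem_erase hj
    refine lt_of_le_of_ne (hmax j hjs) ?_
    intro heq
    by_cases hyj : y j = 0
    · rw [hyj, map_zero] at heq
      exact hpos heq.symm
    · exact Finset.ne_of_mem_erase hj (hinj j hjs i₀ hi₀ hyj hy0 heq)
  rw [← Finset.add_sum_erase s y hi₀]
  intro h
  have := Valuation.map_add_eq_of_lt_left v hlt
  rw [h, map_zero] at this
  exact hpos this.symm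

theorem places_no_eq {Γ : Type*} [LinearOrderedCommGroupWithZero Γ] {c a b : Γ} (hc0 : c ≠ 0)
    (hc1 : c < 1) (hca : c ≤ a) (hab : a < b) (hb : b < 1) (d : ℤ) : a ≠ c ^ d * b := by
  intro h
  have hb0 : b ≠ 0 := fun h0 => by
    rw [h0] at hab
    exact not_lt_zero hab
  rcases le_or_gt d 0 with hd | hd
  · obtain ⟨k, rfl⟩ : ∃ k : ℕ, d = -(k : ℤ) := ⟨(-d).toNat, by omega⟩
    rw [zpow_neg, zpow_natCast] at h
    have h1 : c ^ k ≤ 1 := pow_le_one' hc1.le k
    have h2 : c ^ k * a = b := by
      rw [h, ← mul_assoc, mul_inv_cancel₀ (pow_ne_zero _ hc0), one_mul]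
    have h3 : b ≤ a := by
      calc b = c ^ k * a := h2.symm
        _ ≤ 1 * a := by gcongr
        _ = a := one_mul _
    exact absurd hab (not_lt.2 h3)
  · obtain ⟨k, rfl⟩ : ∃ k : ℕ, d = (k : ℤ) + 1 := ⟨(d - 1).toNat, by omega⟩
    rw [zpow_add₀ hc0, zpow_natCast, zpow_one] at h
    have h1 : c ^ k ≤ 1 := pow_le_one' hc1.le k
    have h3 : a < c := by
      calc a = c ^ k * c * b := h
        _ ≤ 1 * c * b := by gcongr
        _ = c * b := by rw [one_mul]
        _ < c * 1 := by
          exact mul_lt_mul_of_pos_left hb (zero_lt_iff.2 hc0)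
        _ = c := mul_one _
    exact absurd hca (not_le.2 h3)

theorem places_linearIndependent (O : ValuationSubring F) (hK : ∀ a : K, algebraMap K F a ∈ O)
    {x : F} (hx : O.valuation x < 1) (hx0 : x ≠ 0) {n : ℕ} (z : Fin n → F)
    (hz1 : ∀ i, O.valuation x ≤ O.valuation (z i)) (hz2 : ∀ i, O.valuation (z i) < 1)
    (hmono : StrictMono (fun i => O.valuation (z i))) :
    LinearIndependent K⟮x⟯ z := by
  have hc0 : O.valuation x ≠ 0 := (Valuation.ne_zero_iff _).2 hx0
  have hz0 : ∀ i, z i ≠ 0 := fun i => by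
    rw [← Valuation.ne_zero_iff O.valuation]
    intro h
    have := hz1 i
    rw [h] at this
    exact hc0 (le_antisymm this zero_le)
  rw [Fintype.linearIndependent_iff]
  intro g hg i
  by_contra hi
  refine places_sum_ne_zero O.valuation Finset.univ (fun i => g i • z i)
    ⟨i, Finset.mem_univ _, by
      rw [IntermediateField.smul_def, smul_eq_mul]
      exact mul_ne_zero (by simpa using hi) (hz0 i)⟩ ?_ hg
  -- key: i < j impossible
  have key : ∀ i j : Fin n, i < j → g i ≠ 0 → g j ≠ 0 →
      O.valuation (g i • z i) ≠ O.valuation (g j • z j) := by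
    intro i j hij hgi hgj heq
    obtain ⟨a, ha⟩ := places_valuation_adjoin O hK hx hx0 (g i) hgi
    obtain ⟨b, hb⟩ := places_valuation_adjoin O hK hx hx0 (g j) hgj
    rw [IntermediateField.smul_def, IntermediateField.smul_def, smul_eq_mul, smul_eq_mul,
      map_mul, map_mul, ha, hb] at heq
    refine places_no_eq hc0 hx (hz1 i) (hmono hij) (hz2 j) (b - a) ?_
    rw [zpow_sub₀ hc0, div_eq_mul_inv, mul_assoc, mul_comm _ (O.valuation (z j)), ← mul_assoc,
      ← heq, mul_comm (O.valuation x ^ a), mul_assoc, mul_inv_cancel₀ (zpow_ne_zero _ hc0),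
      mul_one]
  intro i _ j _ hyi hyj heq
  have hgi : g i ≠ 0 := fun h => hyi (by simp [h])
  have hgj : g j ≠ 0 := fun h => hyj (by simp [h])
  rcases lt_trichotomy i j with h | h | h
  · exact absurd heq (key i j h hgi hgj)
  · exact h
  · exact absurd heq.symm (key j i h hgj hgi)

/-- Every proper valuation subring of `F` containing `K` is (the ring of) a place, i.e. a DVR.
Proof (Stichtenoth 1.1.6): for `0 ≠ x₁ ∈ 𝔪`, a chain `x₁ ∈ x₂ 𝔪, x₂ ∈ x₃ 𝔪, …, ` has length
`≤ [F : K(x₁)]` (the `xᵢ` are linearly independent over `K(x₁)`), hence `𝔪` is principal. -/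
theorem exists_place_of_valuationSubring [IsFF1 K F] (O : ValuationSubring F)
    (hK : ∀ a : K, algebraMap K F a ∈ O) (hO : O ≠ ⊤) :
    ∃ v : Place K F, v.toValuationSubring = O := by
  have hwf : WfDvdMonoid O := by
    constructor
    rw [wellFounded_iff_isEmpty_descending_chain]
    refine ⟨fun ⟨f, hf⟩ => ?_⟩
    have hne : ∀ n, (f (n + 1) : F) ≠ 0 := fun n => by
      have := (hf n).1
      simpa using this
    have hlt : ∀ n, O.valuation (f n : F) < O.valuation (f (n + 1) : F) := by
      intro n
      obtain ⟨h0, y, hy, heq⟩ := hf n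
      have hy1 : O.valuation (y : F) < 1 := (O.valuation_lt_one_iff y).1 hy
      have hpos : 0 < O.valuation (f (n + 1) : F) :=
        zero_lt_iff.2 ((Valuation.ne_zero_iff _).2 (hne n))
      rw [heq]
      push_cast
      rw [map_mul]
      calc O.valuation (f (n + 1) : F) * O.valuation (y : F)
          < O.valuation (f (n + 1) : F) * 1 := mul_lt_mul_of_pos_left hy1 hpos
        _ = _ := mul_one _
    have hmono : StrictMono (fun n => O.valuation (f n : F)) := strictMono_nat_of_lt_succ hlt
    have hle1 : ∀ n, O.valuation (f n : F) < 1 := fun n =>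
      lt_of_lt_of_le (hlt n) ((O.valuation_le_one_iff _).2 (f (n + 1)).2)
    set x : F := (f 1 : F) with hx
    have hx0 : x ≠ 0 := hne 0
    have hx1 : O.valuation x < 1 := hle1 1
    have hxinv : x⁻¹ ∉ O := by
      intro h
      have h1 := (O.valuation_le_one_iff _).2 h
      rw [map_inv₀] at h1
      have h2 : O.valuation x * (O.valuation x)⁻¹ = 1 :=
        mul_inv_cancel₀ ((Valuation.ne_zero_iff _).2 hx0)
      have h3 : O.valuation x * (O.valuation x)⁻¹ ≤ O.valuation x * 1 := by gcongr
      rw [h2, mul_one] at h3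
      exact absurd hx1 (not_lt.2 h3)
    have htr : Transcendental K x :=
      places_transcendental O hK (f 1).2 hxinv
    haveI := finiteDimensional_adjoin_of_transcendental htr
    set N := Module.finrank K⟮x⟯ F with hN
    have hli : LinearIndependent K⟮x⟯ (fun i : Fin (N + 1) => (f (i + 1) : F)) := by
      refine places_linearIndependent O hK hx1 hx0 _ ?_ ?_ ?_
      · intro i
        exact hmono.monotone (by omega)
      · intro i
        exact hle1 _
      · intro i j hij
        exact hmono (by simpa using hij)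
    have := hli.fintype_card_le_finrank
    simp at this
    omega
  have hpid : IsPrincipalIdealRing O := ((IsBezout.TFAE (R := O)).out 3 1).1 hwf
  exact ⟨⟨O, hK, hO, hpid⟩, rfl⟩

/-- A transcendental element has a zero. -/
theorem exists_place_ord_pos [IsFF1 K F] {t : F} (ht : Transcendental K t) :
    ∃ v : Place K F, 0 < v.ord t := by
  have ht0 : t ≠ 0 := fun h => ht (h ▸ isAlgebraic_zero)
  let R : Subring F := (Algebra.adjoin K {t}).toSubring
  have htR : t ∈ R := Algebra.self_mem_adjoin_singleton K t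
  let τ : R := ⟨t, htR⟩
  have hne : Ideal.span {τ} ≠ ⊤ := by
    rw [Ne, Ideal.span_singleton_eq_top]
    intro hu
    obtain ⟨⟨y, hy⟩, hn⟩ := hu.exists_right_inv
    have hy' : y ∈ Algebra.adjoin K {t} := hy
    rw [Algebra.adjoin_singleton_eq_range_aeval] at hy'
    obtain ⟨g, rfl⟩ := hy'
    have h1 : t * aeval t g = 1 := by simpa [τ] using congrArg Subtype.val hn
    apply ht
    refine ⟨X * g - 1, ?_, by simp [h1]⟩
    intro h0
    have := congrArg (fun p : K[X] => p.coeff 0) h0
    simp at this
  obtain ⟨B, hRB, hB⟩ := Ideal.image_subset_nonunits_valuationSubring _ hne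
  have htB : t ∈ B.nonunits := hB ⟨τ, Ideal.subset_span rfl, rfl⟩
  have hv : B.valuation t < 1 := (B.mem_nonunits_iff).1 htB
  have hK : ∀ a : K, algebraMap K F a ∈ B := fun a =>
    hRB ((Algebra.adjoin K {t}).algebraMap_mem a)
  have hinv : t⁻¹ ∉ B := by
    intro h
    have h1 := (B.valuation_le_one_iff _).2 h
    rw [map_inv₀] at h1
    have h2 : B.valuation t * (B.valuation t)⁻¹ = 1 :=
      mul_inv_cancel₀ ((Valuation.ne_zero_iff _).2 ht0)
    have h3 : B.valuation t * (B.valuation t)⁻¹ ≤ B.valuation t * 1 := by gcongr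
    rw [h2, mul_one] at h3
    exact absurd hv (not_lt.2 h3)
  have htop : B ≠ ⊤ := by
    rintro rfl
    exact hinv (ValuationSubring.mem_top _)
  obtain ⟨v, hvB⟩ := exists_place_of_valuationSubring B hK htop
  refine ⟨v, ?_⟩
  by_contra hcon
  apply hinv
  rw [← hvB]
  apply mem_toValuationSubring_of_ord_nonneg
  rw [v.ord_inv]
  omega

/-- A transcendental element has a pole. -/
theorem exists_place_ord_neg [IsFF1 K F] {t : F} (ht : Transcendental K t) :
    ∃ v : Place K F, v.ord t < 0 := by
  obtain ⟨v, hv⟩ := exists_place_ord_pos (transcendental_inv ht)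
  refine ⟨v, ?_⟩
  rw [v.ord_inv] at hv
  omega

/-- There is at least one place. -/
theorem nonempty_place [IsFF1 K F] : Nonempty (Place K F) := by
  obtain ⟨t, ht, -⟩ := IsFF1.exists_transcendental (K := K) (F := F)
  obtain ⟨v, -⟩ := exists_place_ord_pos ht
  exact ⟨v⟩

/-- An element without poles is constant (`K` algebraically closed). -/
theorem mem_range_of_forall_ord_nonneg [IsAlgClosed K] [IsFF1 K F] {f : F}
    (h : ∀ v : Place K F, 0 ≤ v.ord f) : f ∈ Set.range (algebraMap K F) := by
  by_contra hf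
  obtain ⟨v, hv⟩ := exists_place_ord_neg (transcendental_of_not_mem_range hf)
  exact absurd (h v) (not_le.2 hv)

end Fermat.Agent.GAL.FF
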