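import Fermat.Agent.GAL.FF.ExtNorm

/-!
# GAL / FF : the `…Along` versions (prelude `Def_AlgebraicCurve_Correspondence`)  (package FF-E6)

Any characteristic, `K` algebraically closed.  These are the general function field inputs of the
prelude's `ModularCurve.HeckeInputsAlong`.
-/

set_option autoImplicit false

namespace Fermat.Agent.GAL.FF

open AlgebraicCurve IntermediateField Fermat.Agent.S24.FF

variable {K F F' : Type*} [Field K] [Field F] [Field F'] [Algebra K F] [Algebra K F']
  [IsAlgClosed K] [IsFF1 K F] [IsFF1 K F']

theorem finiteAlong (φ : F →ₐ[K] F') : FiniteAlong K φ := by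
  letI := algebraAlong φ
  haveI := isScalarTower_along φ
  exact finite_of_isFF1 K F F'

theorem isIntegral_toRingHom (φ : F →ₐ[K] F') : φ.toRingHom.IsIntegral := by
  letI := algebraAlong φ
  haveI := isScalarTower_along φ
  haveI : Module.Finite F F' := finite_of_isFF1 K F F'
  exact (Algebra.IsIntegral.of_finite F F').isIntegral

theorem fundamentalIdentityAlong (φ : F →ₐ[K] F') (hφ : φ.toRingHom.IsIntegral) :
    FundamentalIdentityAlong K φ hφ := by
  letI := algebraAlong φ
  haveI := isScalarTower_along φ
  haveI : Module.Finite F F' := finite_of_isFF1 K F F'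
  haveI := isIntegral_along φ hφ
  show FundamentalIdentity K F F'
  infer_instance

theorem normFormulaAlong (φ : F →ₐ[K] F') (hfin : FiniteAlong K φ) :
    NormFormulaAlong K φ hfin := by
  letI := algebraAlong φ
  haveI := isScalarTower_along φ
  haveI : Module.Finite F F' := hfin
  exact pushforwardNormFormula K F F'

theorem inertiaDegAlong_eq_one (φ : F →ₐ[K] F') (hφ : φ.toRingHom.IsIntegral) (w : Place K F') :
    w.inertiaDegAlong φ hφ = 1 := by
  letI := algebraAlong φ
  haveI := isScalarTower_along φ
  haveI := isIntegral_along φ hφ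
  exact inertiaDeg_eq_one w

theorem exists_restrictAlong_eq (φ : F →ₐ[K] F') (hφ : φ.toRingHom.IsIntegral) (v : Place K F) :
    ∃ w : Place K F', w.restrictAlong φ hφ = v := by
  letI := algebraAlong φ
  haveI := isScalarTower_along φ
  haveI := isIntegral_along φ hφ
  exact exists_restrict_eq v

theorem sum_ramificationIndexAlong (φ : F →ₐ[K] F') (hφ : φ.toRingHom.IsIntegral)
    (v : Place K F) :
    ∑ w ∈ Place.fiberAlong φ hφ v, (w.ramificationIndexAlong φ : ℤ) = (finrankAlong K φ : ℤ) := by
  letI := algebraAlong φ
  haveI := isScalarTower_along φ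
  haveI : Module.Finite F F' := finite_of_isFF1 K F F'
  exact sum_ramificationIndex v

theorem pushforwardAlong_pullbackAlong (φ : F →ₐ[K] F') (hφ : φ.toRingHom.IsIntegral)
    (D : Divisor K F) :
    Divisor.pushforwardAlong φ hφ (Divisor.pullbackAlong φ hφ D) = (finrankAlong K φ) • D := by
  letI := algebraAlong φ
  haveI := isScalarTower_along φ
  haveI : Module.Finite F F' := finite_of_isFF1 K F F'
  exact pushforward_pullback D

end Fermat.Agent.GAL.FF
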