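import Fermat.Agent.GAL.FF.ExtLocalBasis

/-!
# GAL / FF : the norm formula `ord_v (N f) = ∑_{w ∣ v} ord_w f`  (package FF-E5)

Any characteristic, `K` algebraically closed.
-/

set_option autoImplicit false

namespace Fermat.Agent.GAL.FF

open AlgebraicCurve IntermediateField Fermat.Agent.S24.FF

section general

variable {K F : Type*} [Field K] [Field F] [Algebra K F]

theorem ExtNorm_ord_mul_nonneg (v : Place K F) {a b : F} (ha : 0 ≤ v.ord a) (hb : 0 ≤ v.ord b) :
    0 ≤ v.ord (a * b) :=
  ord_nonneg_of_mem v (mul_mem (mem_toValuationSubring_of_ord_nonneg v ha)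
    (mem_toValuationSubring_of_ord_nonneg v hb))

theorem ExtNorm_ord_sum_nonneg (v : Place K F) {ι : Type*} (s : Finset ι) (a : ι → F)
    (ha : ∀ i ∈ s, 0 ≤ v.ord (a i)) : 0 ≤ v.ord (∑ i ∈ s, a i) :=
  ord_nonneg_of_mem v (sum_mem fun i hi => mem_toValuationSubring_of_ord_nonneg v (ha i hi))

theorem ExtNorm_ord_prod (v : Place K F) {ι : Type*} (s : Finset ι) (a : ι → F)
    (ha : ∀ i ∈ s, a i ≠ 0) : v.ord (∏ i ∈ s, a i) = ∑ i ∈ s, v.ord (a i) := by
  classical
  induction s using Finset.induction_on with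
  | empty => simp
  | insert i s hi ih =>
    rw [Finset.prod_insert hi, Finset.sum_insert hi,
      v.ord_mul (ha i (Finset.mem_insert_self i s))
        (Finset.prod_ne_zero_iff.mpr fun j hj => ha j (Finset.mem_insert_of_mem hj)),
      ih fun j hj => ha j (Finset.mem_insert_of_mem hj)]

/-- determinant and adjugate of a matrix with `v`-integral entries are `v`-integral. -/
theorem ExtNorm_det_adjugate (v : Place K F) {n : Type*} [Fintype n] [DecidableEq n]
    (M : Matrix n n F) (hM : ∀ i j, 0 ≤ v.ord (M i j)) :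
    0 ≤ v.ord M.det ∧ ∀ i j, 0 ≤ v.ord (M.adjugate i j) := by
  let M₀ : Matrix n n v.toValuationSubring :=
    fun i j => ⟨M i j, mem_toValuationSubring_of_ord_nonneg v (hM i j)⟩
  have hMM : v.toValuationSubring.subtype.mapMatrix M₀ = M := by
    ext i j
    rfl
  constructor
  · rw [← hMM, ← RingHom.map_det]
    exact ord_nonneg_of_mem v (M₀.det).2
  · intro i j
    rw [← hMM, ← RingHom.map_adjugate]
    exact ord_nonneg_of_mem v (M₀.adjugate i j).2

end general

variable {K F F' : Type*} [Field K] [Field F] [Field F']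
  [Algebra K F] [Algebra K F'] [Algebra F F'] [IsScalarTower K F F']
  [IsAlgClosed K] [IsFF1 K F] [IsFF1 K F'] [Module.Finite F F']

omit [IsAlgClosed K] [IsFF1 K F] [IsFF1 K F'] in
/-- the matrix of multiplication by an element integral above `v` in a local basis is integral. -/
theorem ExtNorm_leftMulMatrix_integral (v : Place K F)
    (b : Module.Basis (Fin (Module.finrank F F')) F F')
    (hb : ∀ y : F', (∀ w : Place K F', w.restrict F = v → 0 ≤ w.ord y) ↔
        ∀ i, 0 ≤ v.ord (b.repr y i)) {y : F'}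
    (h : ∀ w : Place K F', w.restrict F = v → 0 ≤ w.ord y) (i j : Fin (Module.finrank F F')) :
    0 ≤ v.ord (Algebra.leftMulMatrix b y i j) := by
  rw [Algebra.leftMulMatrix_eq_repr_mul]
  have hbj : ∀ w : Place K F', w.restrict F = v → 0 ≤ w.ord (b j) := by
    rw [hb]
    intro i
    rw [Module.Basis.repr_self, Finsupp.single_apply]
    split_ifs <;> simp
  exact (hb (y * b j)).mp (fun w hw => ExtNorm_ord_mul_nonneg w (h w hw) (hbj w hw)) i

omit [IsAlgClosed K] [IsFF1 K F] [IsFF1 K F'] [Algebra K F] [Algebra K F'] [IsScalarTower K F F']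
  [Field K] in
theorem ExtNorm_norm_inv (y : F') : Algebra.norm F y⁻¹ = (Algebra.norm F y)⁻¹ := by
  by_cases hy : y = 0
  · subst hy
    rw [inv_zero, Algebra.norm_zero, inv_zero]
  · refine eq_inv_of_mul_eq_one_right ?_
    rw [← map_mul, mul_inv_cancel₀ hy, map_one]

omit [IsAlgClosed K] [IsFF1 K F] [IsFF1 K F'] [Algebra K F] [Algebra K F'] [IsScalarTower K F F']
  [Field K] in
theorem ExtNorm_norm_zpow (y : F') (n : ℤ) : Algebra.norm F (y ^ n) = (Algebra.norm F y) ^ n := by
  cases n with
  | ofNat n => simp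
  | negSucc n => rw [zpow_negSucc, zpow_negSucc, ExtNorm_norm_inv, map_pow]

theorem ord_norm_nonneg (v : Place K F) {y : F'}
    (h : ∀ w : Place K F', w.restrict F = v → 0 ≤ w.ord y) : 0 ≤ v.ord (Algebra.norm F y) := by
  obtain ⟨b, hb⟩ := exists_localBasis (F' := F') v
  rw [Algebra.norm_eq_matrix_det b]
  exact (ExtNorm_det_adjugate v _ (ExtNorm_leftMulMatrix_integral v b hb h)).1

theorem ord_norm_eq_zero (v : Place K F) {y : F'}
    (h : ∀ w : Place K F', w.restrict F = v → w.ord y = 0) : v.ord (Algebra.norm F y) = 0 := by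
  by_cases hy : y = 0
  · subst hy
    rw [Algebra.norm_zero, v.ord_zero]
  have h1 := ord_norm_nonneg v (y := y) fun w hw => (h w hw).ge
  have h2 := ord_norm_nonneg v (y := y⁻¹) fun w hw => by rw [w.ord_inv, h w hw]; simp
  rw [ExtNorm_norm_inv, v.ord_inv] at h2
  omega

theorem ord_norm_pos (v : Place K F) {y : F'} (hy : y ≠ 0)
    (h : ∀ w : Place K F', w.restrict F = v → 0 ≤ w.ord y)
    {w₀ : Place K F'} (hw₀ : w₀.restrict F = v) (h₀ : 0 < w₀.ord y) :
    0 < v.ord (Algebra.norm F y) := by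
  obtain ⟨b, hb⟩ := exists_localBasis (F' := F') v
  have hnn := ord_norm_nonneg v h
  by_contra hcon
  have hzero : v.ord (Algebra.norm F y) = 0 := by omega
  set M := Algebra.leftMulMatrix b y with hM
  have hMint := ExtNorm_leftMulMatrix_integral v b hb h
  have hdet : Algebra.norm F y = M.det := Algebra.norm_eq_matrix_det b y
  have hadj := (ExtNorm_det_adjugate v M hMint).2
  have hdet0 : M.det ≠ 0 := by
    rw [← hdet]; exact Algebra.norm_ne_zero_iff.mpr hy
  -- coordinates of `1`
  have hone : ∀ i, 0 ≤ v.ord (b.repr (1 : F') i) :=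
    (hb 1).mp fun w _ => by rw [w.ord_one]
  have hvec : M.mulVec (b.repr y⁻¹) = b.repr (1 : F') := by
    rw [hM, Algebra.leftMulMatrix_mulVec_repr, mul_inv_cancel₀ hy]
  have hvec2 : M.det • (b.repr y⁻¹ : Fin (Module.finrank F F') → F)
      = M.adjugate.mulVec (b.repr (1 : F')) := by
    rw [← hvec, Matrix.mulVec_mulVec, Matrix.adjugate_mul, Matrix.smul_mulVec, Matrix.one_mulVec]
  have hcoord : ∀ i, 0 ≤ v.ord (b.repr y⁻¹ i) := by
    intro i
    have h1 : M.det * b.repr y⁻¹ i = ∑ j, M.adjugate i j * b.repr (1 : F') j := by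
      have := congrFun hvec2 i
      simpa [Matrix.mulVec, dotProduct] using this
    have h2 : 0 ≤ v.ord (M.det * b.repr y⁻¹ i) := by
      rw [h1]
      exact ExtNorm_ord_sum_nonneg v _ _ fun j _ => ExtNorm_ord_mul_nonneg v (hadj i j) (hone j)
    by_cases hz : b.repr y⁻¹ i = 0
    · rw [hz, v.ord_zero]
    · rw [v.ord_mul hdet0 hz, ← hdet, hzero, zero_add] at h2
      exact h2
  have := (hb y⁻¹).mpr hcoord w₀ hw₀
  rw [w₀.ord_inv] at this
  omega

/-- additivity of `ord_v ∘ N` along a system of local uniformisers above `v`. -/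
theorem ExtNorm_ord_norm_eq_sum [DecidableEq (Place K F')] (v : Place K F) (g : Place K F' → F')
    (hg0 : ∀ w ∈ v.fiber F', g w ≠ 0)
    (hg : ∀ w ∈ v.fiber F', ∀ w' ∈ v.fiber F', w'.ord (g w) = if w' = w then 1 else 0)
    {f : F'} (hf : f ≠ 0) :
    v.ord (Algebra.norm F f) = ∑ w ∈ v.fiber F', w.ord f * v.ord (Algebra.norm F (g w)) := by
  set P : F' := ∏ w ∈ v.fiber F', g w ^ (w.ord f) with hP
  have hP0 : P ≠ 0 := Finset.prod_ne_zero_iff.mpr fun w hw => zpow_ne_zero _ (hg0 w hw)
  have hordP : ∀ w' ∈ v.fiber F', w'.ord P = w'.ord f := by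
    intro w' hw'
    rw [hP, ExtNorm_ord_prod w' _ _ fun w hw => zpow_ne_zero _ (hg0 w hw)]
    have : ∀ w ∈ v.fiber F', w'.ord (g w ^ (w.ord f)) = if w' = w then w.ord f else 0 := by
      intro w hw
      rw [w'.ord_zpow, hg w hw w' hw']
      split_ifs <;> simp
    rw [Finset.sum_congr rfl this, Finset.sum_ite_eq, if_pos hw']
  have hu : v.ord (Algebra.norm F (f / P)) = 0 := by
    refine ord_norm_eq_zero v fun w hw => ?_
    rw [div_eq_mul_inv, w.ord_mul hf (inv_ne_zero hP0), w.ord_inv,
      hordP w (Place.mem_fiber.mpr hw)]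
    omega
  have hfP : f = f / P * P := by field_simp
  have hNP : v.ord (Algebra.norm F P)
      = ∑ w ∈ v.fiber F', w.ord f * v.ord (Algebra.norm F (g w)) := by
    rw [hP, map_prod, ExtNorm_ord_prod v _ _ fun w hw =>
      Algebra.norm_ne_zero_iff.mpr (zpow_ne_zero _ (hg0 w hw))]
    refine Finset.sum_congr rfl fun w _ => ?_
    rw [ExtNorm_norm_zpow, v.ord_zpow]
  rw [← hNP]
  conv_lhs => rw [hfP]
  rw [map_mul, v.ord_mul (Algebra.norm_ne_zero_iff.mpr (div_ne_zero hf hP0))
    (Algebra.norm_ne_zero_iff.mpr hP0), hu, zero_add]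

/-- **norm formula**. -/
theorem ord_norm (v : Place K F) {f : F'} (hf : f ≠ 0) :
    v.ord (Algebra.norm F f) = ∑ w ∈ v.fiber F', w.ord f := by
  classical
  -- local uniformisers above `v`
  have hex : ∀ w : Place K F', ∃ z : F', z ≠ 0 ∧
      ∀ w' ∈ v.fiber F', w'.ord z = if w' = w then 1 else 0 := fun w =>
    exists_ord_eq (v.fiber F') fun w' => if w' = w then 1 else 0
  choose g hg0 hg using hex
  have key := fun {f : F'} (hf : f ≠ 0) =>
    ExtNorm_ord_norm_eq_sum v g (fun w _ => hg0 w) (fun w _ w' hw' => hg w w' hw') hf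
  -- `d w ≥ 1`
  have hd : ∀ w ∈ v.fiber F', 1 ≤ v.ord (Algebra.norm F (g w)) := by
    intro w hw
    have hwv := Place.mem_fiber.mp hw
    refine ord_norm_pos v (hg0 w) (fun w' hw' => ?_) hwv ?_
    · rw [hg w w' (Place.mem_fiber.mpr hw')]
      split_ifs <;> simp
    · rw [hg w w hw, if_pos rfl]
      exact one_pos
  -- apply `key` to a uniformiser of `v`
  obtain ⟨π, hπ⟩ := exists_ord_eq_one v
  have hπ0 : π ≠ 0 := ne_zero_of_ord_ne_zero v (by rw [hπ]; exact one_ne_zero)
  have hπ' : algebraMap F F' π ≠ 0 := by simpa using hπ0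
  have h1 := key hπ'
  rw [Algebra.norm_algebraMap, ord_pow, hπ, mul_one] at h1
  have h2 : ∀ w ∈ v.fiber F', w.ord (algebraMap F F' π) = (w.ramificationIndex F : ℤ) := by
    intro w hw
    rw [w.ord_restrict, Place.mem_fiber.mp hw, hπ, mul_one]
  rw [Finset.sum_congr rfl fun w hw => by rw [h2 w hw], ← sum_ramificationIndex (F' := F') v] at h1
  have h3 : ∑ w ∈ v.fiber F', (w.ramificationIndex F : ℤ) * (v.ord (Algebra.norm F (g w)) - 1)
      = 0 := by
    simp only [mul_sub, mul_one, Finset.sum_sub_distrib]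
    omega
  have h4 := (Finset.sum_eq_zero_iff_of_nonneg fun w hw =>
    mul_nonneg (Int.natCast_nonneg _) (by have := hd w hw; omega)).mp h3
  have hd1 : ∀ w ∈ v.fiber F', v.ord (Algebra.norm F (g w)) = 1 := by
    intro w hw
    have h5 := h4 w hw
    have hpos : (0 : ℤ) < (w.ramificationIndex F : ℤ) := by
      exact_mod_cast w.ramificationIndex_pos (F := F)
    rcases mul_eq_zero.mp h5 with h6 | h6
    · omega
    · omega
  rw [key hf]
  exact Finset.sum_congr rfl fun w hw => by rw [hd1 w hw, mul_one]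

theorem pushforward_divOf (f : F') :
    Divisor.pushforward F (divOf K f) = divOf K (Algebra.norm F f) := by
  classical
  by_cases hf : f = 0
  · subst hf
    have h0 : divOf K (0 : F') = 0 := by ext w; simp
    have h1 : divOf K (0 : F) = 0 := by ext w; simp
    rw [Algebra.norm_zero, h0, h1, map_zero]
  ext v
  rw [divOf_apply, ord_norm v hf, Divisor.pushforward_apply]
  have h1 : ∀ w ∈ (divOf K f).support,
      (if w.restrict F = v then divOf K f w * (w.inertiaDeg F : ℤ) else 0)
        = if w ∈ v.fiber F' then w.ord f else 0 := by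
    intro w _
    rw [inertiaDeg_eq_one]
    by_cases hw : w.restrict F = v
    · rw [if_pos hw, if_pos (Place.mem_fiber.mpr hw)]
      simp
    · rw [if_neg hw, if_neg fun h => hw (Place.mem_fiber.mp h)]
  rw [Finset.sum_congr rfl h1, ← Finset.sum_filter]
  refine Finset.sum_subset_zero_on_sdiff ?_ ?_ fun _ _ => rfl
  · intro w hw
    exact (Finset.mem_filter.mp hw).2
  · intro w hw
    rw [Finset.mem_sdiff, Finset.mem_filter, not_and'] at hw
    have := hw.2 hw.1
    rw [Finsupp.notMem_support_iff] at this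
    exact this

variable (K F F') in
theorem pushforwardNormFormula : Divisor.PushforwardNormFormula K F F' := by
  intro f _ D hD v
  have : D = divOf K f := by
    ext w
    rw [hD w, divOf_apply]
  rw [this, pushforward_divOf, divOf_apply]

end Fermat.Agent.GAL.FF
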