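import Fermat.Agent.GAL.FF.LSpace

/-!
# GAL / FF : the prelude's repartitions (adeles)  (package FF-R6)

Any characteristic.  Reference: Stichtenoth 1.5.1 - 1.5.4.
-/

set_option autoImplicit false

namespace Fermat.Agent.GAL.FF

open AlgebraicCurve IntermediateField Fermat.Agent.S24.FF

variable {K F : Type*} [Field K] [Field F] [Algebra K F]

/-- elements of any prescribed order exist. -/
theorem exists_ne_zero_ord_eq (v : Place K F) (n : ℤ) : ∃ x : F, x ≠ 0 ∧ v.ord x = n := by
  obtain ⟨π, hπ⟩ := exists_ord_eq_one v
  have hπ0 : π ≠ 0 := ne_zero_of_ord_ne_zero v (by rw [hπ]; exact one_ne_zero)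
  exact ⟨π ^ n, zpow_ne_zero n hπ0, by rw [v.ord_zpow, hπ, mul_one]⟩

theorem Adele_ord_add_neg (v : Place K F) {a b : F} (h : v.ord (a + b) < 0) :
    v.ord a < 0 ∨ v.ord b < 0 := by
  have hne : a + b ≠ 0 := ne_zero_of_ord_ne_zero v h.ne
  have := min_ord_le_ord_add v hne
  rcases min_le_iff.mp this with h1 | h1
  · exact Or.inl (h1.trans_lt h)
  · exact Or.inr (h1.trans_lt h)

theorem Adele_ord_mul_neg (v : Place K F) {a b : F} (h : v.ord (a * b) < 0) :
    v.ord a < 0 ∨ v.ord b < 0 := by
  have hne : a * b ≠ 0 := ne_zero_of_ord_ne_zero v h.ne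
  rw [v.ord_mul (left_ne_zero_of_mul hne) (right_ne_zero_of_mul hne)] at h
  by_contra hcon
  push Not at hcon
  omega

/-- the prelude's `Algebra.adjoin` adds nothing. -/
theorem mem_repartitions_iff [IsFF1 K F] (α : Place K F → F) :
    α ∈ repartitions K F ↔ {v : Place K F | v.ord (α v) < 0}.Finite := by
  refine ⟨fun h => ?_, mem_repartitions_of_finite_ord⟩
  unfold repartitions at h
  induction h using Algebra.adjoin_induction with
  | mem x hx =>
    have hx' : {v : Place K F | ¬v.adicValuation (x v) ≤ 1}.Finite := hx
    rwa [show {v : Place K F | ¬v.adicValuation (x v) ≤ 1}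
        = {v : Place K F | v.ord (x v) < 0} from
      Set.ext fun v => v.not_adicValuation_le_one_iff] at hx'
  | algebraMap f =>
    refine (finite_support_ord (K := K) f).subset fun v hv => ?_
    have hv' : v.ord f < 0 := hv
    exact hv'.ne
  | add x y _ _ hx hy =>
    refine (hx.union hy).subset fun v hv => ?_
    exact Adele_ord_add_neg v hv
  | mul x y _ _ hx hy =>
    refine (hx.union hy).subset fun v hv => ?_
    exact Adele_ord_mul_neg v hv

theorem exists_le_mem_repartitionsOf [IsFF1 K F] (α : ↥(repartitions K F)) (D₀ : Divisor K F) :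
    ∃ D : Divisor K F, D₀ ≤ D ∧ α ∈ repartitionsOf D := by
  classical
  have hfin := (mem_repartitions_iff (α : Place K F → F)).mp α.2
  let D : Divisor K F := Finsupp.onFinset (D₀.support ∪ hfin.toFinset)
    (fun v => max (D₀ v) (max 0 (- v.ord ((α : Place K F → F) v)))) (by
      intro v hv
      by_contra hmem
      rw [Finset.mem_union, not_or, Finsupp.notMem_support_iff, Set.Finite.mem_toFinset,
        Set.mem_ofPred_eq, not_lt] at hmem
      apply hv
      rw [hmem.1, max_eq_left (by omega : - v.ord ((α : Place K F → F) v) ≤ 0), max_self])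
  refine ⟨D, ?_, ?_⟩
  · intro v
    exact le_max_left _ _
  · rw [mem_repartitionsOf_iff]
    intro v
    right
    have h1 : - v.ord ((α : Place K F → F) v) ≤ D v :=
      (le_max_right _ _).trans (le_max_right _ _)
    omega

/-- the local adele `x` at `v`, `0` elsewhere -/
noncomputable def singleAdele [IsFF1 K F] (v : Place K F) (x : F) : ↥(repartitions K F) :=
  letI := Classical.decEq (Place K F)
  ⟨Pi.single v x, (mem_repartitions_iff _).2 ((Set.finite_singleton v).subset (by
    intro w hw
    by_contra hne
    simp only [Set.mem_singleton_iff] at hne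
    simp [Pi.single_eq_of_ne hne] at hw))⟩

theorem singleAdele_apply_self [IsFF1 K F] (v : Place K F) (x : F) :
    (singleAdele v x : Place K F → F) v = x := by
  simp [singleAdele]

theorem singleAdele_apply_of_ne [IsFF1 K F] {v w : Place K F} (h : w ≠ v) (x : F) :
    (singleAdele v x : Place K F → F) w = 0 := by
  classical
  simp only [singleAdele]
  convert Pi.single_eq_of_ne (M := fun _ : Place K F => F) h x

theorem Adele_add_single_apply_self (D : Divisor K F) (v : Place K F) :
    (D + Finsupp.single v 1 : Divisor K F) v = D v + 1 := by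
  simp

theorem Adele_add_single_apply_of_ne (D : Divisor K F) {v w : Place K F} (h : w ≠ v) :
    (D + Finsupp.single v 1 : Divisor K F) w = D w := by
  classical
  rw [Finsupp.add_apply, Finsupp.single_apply, if_neg (Ne.symm h), add_zero]

theorem Adele_le_add_single (D : Divisor K F) (v : Place K F) : D ≤ D + Finsupp.single v 1 := by
  classical
  intro w
  rw [Finsupp.add_apply, Finsupp.single_apply]
  split_ifs <;> omega

theorem singleAdele_mem_add_single [IsFF1 K F] (D : Divisor K F) (v : Place K F)
    {x : F} (hx : v.ord x = - (D v + 1)) :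
    singleAdele v x ∈ repartitionsOf (D + Finsupp.single v 1) := by
  rw [mem_repartitionsOf_iff]
  intro w
  by_cases hw : w = v
  · subst hw
    right
    rw [singleAdele_apply_self, Adele_add_single_apply_self, hx]
  · left
    exact singleAdele_apply_of_ne hw x

/-- `𝔸(D+v) = 𝔸(D) + K · (π^{-(D v+1)} at v)` : the quotient is one-dimensional. -/
theorem repartitionsOf_add_single [IsAlgClosed K] [IsFF1 K F] (D : Divisor K F) (v : Place K F)
    {x : F} (hx0 : x ≠ 0) (hx : v.ord x = - (D v + 1)) :
    repartitionsOf (D + Finsupp.single v 1) = repartitionsOf D ⊔ K ∙ singleAdele v x := by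
  apply le_antisymm
  · intro α hα
    rw [mem_repartitionsOf_iff] at hα
    set a : F := (α : Place K F → F) v with ha
    -- the constant `c`
    have hg : 0 ≤ v.ord (a / x) := by
      rcases hα v with h0 | h0
      · rw [← ha] at h0
        rw [h0, zero_div, v.ord_zero]
      · rw [← ha, Adele_add_single_apply_self] at h0
        by_cases ha0 : a = 0
        · rw [ha0, zero_div, v.ord_zero]
        · rw [div_eq_mul_inv, v.ord_mul ha0 (inv_ne_zero hx0), v.ord_inv, hx]
          omega
    obtain ⟨c, hc⟩ := exists_ord_sub_pos (K := K) v hg
    rw [Submodule.mem_sup]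
    refine ⟨α - c • singleAdele v x, ?_, c • singleAdele v x,
      Submodule.smul_mem _ _ (Submodule.mem_span_singleton_self _), by abel⟩
    rw [mem_repartitionsOf_iff]
    intro w
    by_cases hw : w = v
    · subst hw
      have hval : ((α - c • singleAdele w x : ↥(repartitions K F)) : Place K F → F) w
          = (a / x - algebraMap K F c) * x := by
        have : ((α - c • singleAdele w x : ↥(repartitions K F)) : Place K F → F) w
            = a - c • (singleAdele w x : Place K F → F) w := rfl
        rw [this, singleAdele_apply_self, Algebra.smul_def]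
        field_simp
      rw [hval]
      rcases hc with hc | hc
      · left
        rw [hc, sub_self, zero_mul]
      · by_cases hz : a / x - algebraMap K F c = 0
        · left
          rw [hz, zero_mul]
        · right
          rw [w.ord_mul hz hx0, hx]
          omega
    · have hval : ((α - c • singleAdele v x : ↥(repartitions K F)) : Place K F → F) w
          = (α : Place K F → F) w := by
        have : ((α - c • singleAdele v x : ↥(repartitions K F)) : Place K F → F) w
            = (α : Place K F → F) w - c • (singleAdele v x : Place K F → F) w := rfl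
        rw [this, singleAdele_apply_of_ne hw, smul_zero, sub_zero]
      rw [hval]
      have := hα w
      rwa [Adele_add_single_apply_of_ne D hw] at this
  · refine sup_le (repartitionsOf_mono (Adele_le_add_single D v)) ?_
    rw [Submodule.span_singleton_le_iff_mem]
    exact singleAdele_mem_add_single D v hx

theorem singleAdele_not_mem [IsFF1 K F] (D : Divisor K F) (v : Place K F)
    {x : F} (hx0 : x ≠ 0) (hx : v.ord x = - (D v + 1)) : singleAdele v x ∉ repartitionsOf D := by
  intro h
  rw [mem_repartitionsOf_iff] at h
  have := h v
  rw [singleAdele_apply_self] at this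
  rcases this with h0 | h0
  · exact hx0 h0
  · omega

/-- diagonal embedding -/
noncomputable abbrev diag (f : F) : ↥(repartitions K F) := algebraMap F ↥(repartitions K F) f

theorem diag_apply (f : F) (v : Place K F) : ((diag f : ↥(repartitions K F)) : Place K F → F) v = f :=
  rfl

theorem diag_mem_repartitionsOf_iff (D : Divisor K F) (f : F) :
    diag f ∈ repartitionsOf D ↔ f ∈ riemannRochSpace D := by
  rw [mem_repartitionsOf_iff, mem_riemannRochSpace_iff]
  rfl

end Fermat.Agent.GAL.FF
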