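import Fermat.Agent.GAL.FF.RiemannIneq
import Fermat.Agent.GAL.FF.Adele

/-!
# GAL / FF : Riemann's theorem for the prelude's `H1`, `genusFF`  (package FF-R7)

Any characteristic, `K` algebraically closed.  Reference: Stichtenoth 1.5.4.
-/

set_option autoImplicit false

namespace Fermat.Agent.GAL.FF

open AlgebraicCurve IntermediateField Fermat.Agent.S24.FF

variable {K F : Type*} [Field K] [Field F] [Algebra K F]

/-! ### Linear algebra -/

section LinAlg

variable {k A : Type*} [Field k] [AddCommGroup A] [Module k A]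

/-- quotient by `S ⊔ k∙e` versus quotient by `S`, when `e ∉ S` -/
theorem riemann_quot_sup_span_of_not_mem (S : Submodule k A) (e : A) (he : e ∉ S)
    (h : Module.Finite k (A ⧸ (S ⊔ k ∙ e))) :
    Module.Finite k (A ⧸ S) ∧
      Module.finrank k (A ⧸ S) = Module.finrank k (A ⧸ (S ⊔ k ∙ e)) + 1 := by
  have hle : S ≤ S ⊔ k ∙ e := le_sup_left
  let N : Submodule k (A ⧸ S) := (S ⊔ k ∙ e).map S.mkQ
  have hN : N = k ∙ (S.mkQ e) := by
    simp only [N, Submodule.map_sup, Submodule.map_span, Set.image_singleton]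
    rw [Submodule.mkQ_map_self]
    simp
  have hne : S.mkQ e ≠ 0 := by
    intro h0
    exact he ((Submodule.Quotient.mk_eq_zero S).1 h0)
  let φ : ((A ⧸ S) ⧸ N) ≃ₗ[k] A ⧸ (S ⊔ k ∙ e) := Submodule.quotientQuotientEquivQuotient S _ hle
  have : Module.Finite k ((A ⧸ S) ⧸ N) := Module.Finite.equiv φ.symm
  have : Module.Finite k N := by
    rw [hN]; infer_instance
  have hfin : Module.Finite k (A ⧸ S) := Module.Finite.of_submodule_quotient N
  refine ⟨hfin, ?_⟩
  have h1 := Submodule.finrank_quotient_add_finrank N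
  have h2 : Module.finrank k N = 1 := by
    rw [hN]; exact finrank_span_singleton hne
  rw [← h1, h2, φ.finrank_eq]

theorem riemann_finrank_quot_congr {S T : Submodule k A} (h : S = T) :
    Module.finrank k (A ⧸ S) = Module.finrank k (A ⧸ T) := by
  subst h; rfl

theorem riemann_finite_quot_congr {S T : Submodule k A} (h : S = T)
    (hT : Module.Finite k (A ⧸ T)) : Module.Finite k (A ⧸ S) := by
  subst h; exact hT

end LinAlg

/-! ### The local adele at `v` -/

theorem riemann_diag_mem_principal (f : F) :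
    (diag f : ↥(repartitions K F)) ∈ principalRepartitions K F := by
  rw [mem_principalRepartitions_iff]
  exact ⟨f, rfl⟩

theorem riemann_exists_diag_of_mem_principal {α : ↥(repartitions K F)}
    (h : α ∈ principalRepartitions K F) : ∃ f : F, α = diag f := by
  rw [mem_principalRepartitions_iff] at h
  obtain ⟨f, hf⟩ := h
  exact ⟨f, Subtype.ext hf⟩

/-- the local adele lies in `𝔸(D) + F` iff `ℓ` jumps -/
theorem riemann_single_mem_iff [IsAlgClosed K] [IsFF1 K F] (D : Divisor K F) (v : Place K F)
    {x : F} (hx0 : x ≠ 0) (hx : v.ord x = - (D v + 1)) :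
    singleAdele v x ∈ repartitionsOf D ⊔ principalRepartitions K F ↔
      ell (D + Finsupp.single v 1) = ell D + 1 := by
  have hDD : D ≤ D + Finsupp.single v 1 := by
    intro w
    simp only [Finsupp.add_apply]
    have : (0 : ℤ) ≤ Finsupp.single v (1 : ℤ) w := by
      classical
      rw [Finsupp.single_apply]; split_ifs <;> simp
    omega
  have hA := repartitionsOf_add_single D v hx0 hx
  have hnot := singleAdele_not_mem D v hx0 hx
  have hLle : riemannRochSpace D ≤ riemannRochSpace (D + Finsupp.single v 1) := L_mono hDD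
  constructor
  · intro he
    obtain ⟨α, hα, β, hβ, hαβ⟩ := Submodule.mem_sup.1 he
    obtain ⟨f, rfl⟩ := riemann_exists_diag_of_mem_principal hβ
    have hf' : f ∈ riemannRochSpace (D + Finsupp.single v 1) := by
      rw [← diag_mem_repartitionsOf_iff, hA]
      have : (diag f : ↥(repartitions K F)) = singleAdele v x - α := by
        rw [← hαβ]; abel
      rw [this]
      exact Submodule.sub_mem _ (Submodule.mem_sup_right (Submodule.mem_span_singleton_self _))
        (Submodule.mem_sup_left hα)
    have hf : f ∉ riemannRochSpace D := by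
      intro hf
      rw [← diag_mem_repartitionsOf_iff] at hf
      exact hnot (hαβ ▸ Submodule.add_mem _ hα hf)
    have hlt : riemannRochSpace D < riemannRochSpace (D + Finsupp.single v 1) :=
      lt_of_le_of_ne hLle (fun h => hf (h ▸ hf'))
    have h1 : ell D < ell (D + Finsupp.single v 1) := Submodule.finrank_lt_finrank_of_lt hlt
    have h2 := ell_add_single_le D v
    omega
  · intro hell
    have hne : ¬ riemannRochSpace (D + Finsupp.single v 1) ≤ riemannRochSpace D := by
      intro hle
      have : ell (D + Finsupp.single v 1) ≤ ell D := Submodule.finrank_mono hle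
      omega
    obtain ⟨f, hf', hf⟩ := Set.not_subset.1 hne
    have hf'' : (diag f : ↥(repartitions K F)) ∈ repartitionsOf D ⊔ K ∙ singleAdele v x := by
      rw [← hA, diag_mem_repartitionsOf_iff]; exact hf'
    obtain ⟨α, hα, β, hβ, hαβ⟩ := Submodule.mem_sup.1 hf''
    obtain ⟨c, rfl⟩ := Submodule.mem_span_singleton.1 hβ
    have hc : c ≠ 0 := by
      rintro rfl
      apply hf
      show f ∈ riemannRochSpace D
      rw [← diag_mem_repartitionsOf_iff, ← hαβ]
      simpa using hα
    have : singleAdele v x = c⁻¹ • ((diag f : ↥(repartitions K F)) - α) := by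
      rw [← hαβ, add_sub_cancel_left, smul_smul, inv_mul_cancel₀ hc, one_smul]
    rw [this]
    exact Submodule.smul_mem _ _ (Submodule.sub_mem _
      (Submodule.mem_sup_right (riemann_diag_mem_principal f)) (Submodule.mem_sup_left hα))

theorem riemann_exists_ord_eq (v : Place K F) (a : ℤ) : ∃ x : F, x ≠ 0 ∧ v.ord x = a := by
  obtain ⟨z, hz0, hz, -⟩ := exists_ord_eq_and_ge v ∅ (by simp) a 0
  exact ⟨z, hz0, hz⟩

theorem riemann_sup_eq [IsAlgClosed K] [IsFF1 K F] (D : Divisor K F) (v : Place K F)
    {x : F} (hx0 : x ≠ 0) (hx : v.ord x = - (D v + 1)) :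
    repartitionsOf (D + Finsupp.single v 1) ⊔ principalRepartitions K F =
      (repartitionsOf D ⊔ principalRepartitions K F) ⊔ K ∙ singleAdele v x := by
  rw [repartitionsOf_add_single D v hx0 hx, sup_right_comm]

/-- one step: `ℓ(D+v) - ℓ(D) + h¹(D) - h¹(D+v) = 1`. -/
theorem step [IsAlgClosed K] [IsFF1 K F] (D : Divisor K F) (v : Place K F)
    (h : Module.Finite K (H1 (D + Finsupp.single v 1))) :
    Module.Finite K (H1 D) ∧
      (ell (D + Finsupp.single v 1) : ℤ) - ell D + h1 D - h1 (D + Finsupp.single v 1) = 1 := by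
  obtain ⟨x, hx0, hx⟩ := riemann_exists_ord_eq v (- (D v + 1))
  have hS := riemann_sup_eq D v hx0 hx
  have hiff := riemann_single_mem_iff D v hx0 hx
  by_cases he : singleAdele v x ∈ repartitionsOf D ⊔ principalRepartitions K F
  · have hS' : repartitionsOf D ⊔ principalRepartitions K F =
        repartitionsOf (D + Finsupp.single v 1) ⊔ principalRepartitions K F := by
      rw [hS]
      refine (sup_eq_left.2 ?_).symm
      rwa [Submodule.span_singleton_le_iff_mem]
    refine ⟨riemann_finite_quot_congr hS' h, ?_⟩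
    have h1 : h1 D = h1 (D + Finsupp.single v 1) := riemann_finrank_quot_congr hS'
    have h2 := hiff.1 he
    rw [h1, h2]; push_cast; ring
  · have hfin : Module.Finite K (↥(repartitions K F) ⧸
        ((repartitionsOf D ⊔ principalRepartitions K F) ⊔ K ∙ singleAdele v x)) :=
      riemann_finite_quot_congr hS.symm h
    obtain ⟨hf, hr⟩ := riemann_quot_sup_span_of_not_mem _ _ he hfin
    refine ⟨hf, ?_⟩
    have h1 : h1 D = h1 (D + Finsupp.single v 1) + 1 := by
      rw [h1, hr]
      congr 1
      exact riemann_finrank_quot_congr hS.symm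
    have h2 : ell (D + Finsupp.single v 1) = ell D := by
      have h3 := ell_add_single_le D v
      have h4 : ell D ≤ ell (D + Finsupp.single v 1) := ell_mono (by
        intro w
        simp only [Finsupp.add_apply]
        have : (0 : ℤ) ≤ Finsupp.single v (1 : ℤ) w := by
          classical
          rw [Finsupp.single_apply]; split_ifs <;> simp
        omega)
      have h5 : ell (D + Finsupp.single v 1) ≠ ell D + 1 := fun h => he (hiff.2 h)
      omega
    rw [h1, h2]; push_cast; ring

/-- `𝔸 = 𝔸(D) + F` as soon as `deg - ℓ` is maximal at `D`. -/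
theorem subsingleton_H1_of_ell_eq [IsAlgClosed K] [IsFF1 K F] {g : ℕ}
    (hg : ∀ D : Divisor K F, Divisor.degree D + 1 - g ≤ ell D) {D : Divisor K F}
    (h0 : (ell D : ℤ) = Divisor.degree D + 1 - g) : Subsingleton (H1 D) := by
  rw [Submodule.Quotient.subsingleton_iff, eq_top_iff]
  intro α _
  obtain ⟨D1, hD1, hα⟩ := exists_le_mem_repartitionsOf α D
  have key : repartitionsOf D1 ≤ repartitionsOf D ⊔ principalRepartitions K F := by
    refine le_induction (P := fun E => repartitionsOf E ≤
      repartitionsOf D ⊔ principalRepartitions K F) le_sup_left ?_ hD1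
    intro E v hDE hE
    obtain ⟨x, hx0, hx⟩ := riemann_exists_ord_eq v (- (E v + 1))
    have hE1 := ell_eq_of_le hg h0 hDE
    have hE2 := ell_eq_of_le hg h0 (hDE.trans (show E ≤ E + Finsupp.single v 1 from by
      intro w
      simp only [Finsupp.add_apply]
      have : (0 : ℤ) ≤ Finsupp.single v (1 : ℤ) w := by
        classical
        rw [Finsupp.single_apply]; split_ifs <;> simp
      omega))
    rw [map_add, degree_single_one] at hE2
    have hjump : ell (E + Finsupp.single v 1) = ell E + 1 := by omega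
    have hmem := (riemann_single_mem_iff E v hx0 hx).2 hjump
    rw [repartitionsOf_add_single E v hx0 hx]
    refine sup_le hE ?_
    rw [Submodule.span_singleton_le_iff_mem]
    exact (sup_le hE le_sup_right) hmem
  exact key hα

/-- Riemann's theorem with the "Riemann genus" -/
theorem riemann_aux [IsAlgClosed K] [IsFF1 K F] {g : ℕ}
    (hg : ∀ D : Divisor K F, Divisor.degree D + 1 - g ≤ ell D) {D₀ : Divisor K F}
    (h0 : (ell D₀ : ℤ) = Divisor.degree D₀ + 1 - g) (D : Divisor K F) :
    Module.Finite K (H1 D) ∧ (ell D : ℤ) - h1 D = Divisor.degree D + 1 - g := by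
  have hD' : D ≤ D ⊔ D₀ := le_sup_left
  have hE := ell_eq_of_le hg h0 (le_sup_right : D₀ ≤ D ⊔ D₀)
  have hsub := subsingleton_H1_of_ell_eq hg hE
  have htop : Module.Finite K (H1 (D ⊔ D₀)) ∧
      (ell (D ⊔ D₀) : ℤ) - h1 (D ⊔ D₀) = Divisor.degree (D ⊔ D₀) + 1 - g := by
    refine ⟨Module.Finite.of_finite, ?_⟩
    rw [h1, Module.finrank_zero_of_subsingleton, hE]; simp
  refine le_induction (P := fun E => (Module.Finite K (H1 E) ∧
      (ell E : ℤ) - h1 E = Divisor.degree E + 1 - g) → (Module.Finite K (H1 D) ∧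
      (ell D : ℤ) - h1 D = Divisor.degree D + 1 - g)) id ?_ hD' htop
  intro E v _ hE hEv
  obtain ⟨hf, hs⟩ := step E v hEv.1
  refine hE ⟨hf, ?_⟩
  have := hEv.2
  rw [map_add, degree_single_one] at this
  omega

instance finite_H1 [IsAlgClosed K] [IsFF1 K F] (D : Divisor K F) : Module.Finite K (H1 D) := by
  obtain ⟨g, hg, D₀, h0⟩ := exists_genusR K F
  exact (riemann_aux hg h0 D).1

theorem riemann_genus_eq [IsAlgClosed K] [IsFF1 K F] {g : ℕ}
    (hg : ∀ D : Divisor K F, Divisor.degree D + 1 - g ≤ ell D) {D₀ : Divisor K F}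
    (h0 : (ell D₀ : ℤ) = Divisor.degree D₀ + 1 - g) : g = genusFF K F := by
  have h := (riemann_aux hg h0 (0 : Divisor K F)).2
  rw [ell_zero, map_zero] at h
  have : h1 (0 : Divisor K F) = genusFF K F := rfl
  omega

/-- **Riemann's theorem** (Riemann-Roch without duality). -/
theorem riemann [IsAlgClosed K] [IsFF1 K F] (D : Divisor K F) :
    (ell D : ℤ) - h1 D = Divisor.degree D + 1 - genusFF K F := by
  obtain ⟨g, hg, D₀, h0⟩ := exists_genusR K F
  rw [← riemann_genus_eq hg h0]
  exact (riemann_aux hg h0 D).2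

theorem riemann_ineq [IsAlgClosed K] [IsFF1 K F] (D : Divisor K F) :
    Divisor.degree D + 1 - genusFF K F ≤ ell D := by
  have := riemann D
  have h : (0 : ℤ) ≤ h1 D := Int.natCast_nonneg _
  omega

variable (K F) in
theorem exists_degree_bound [IsAlgClosed K] [IsFF1 K F] :
    ∃ c : ℤ, ∀ D : Divisor K F, c ≤ Divisor.degree D →
      Subsingleton (H1 D) ∧ (ell D : ℤ) = Divisor.degree D + 1 - genusFF K F := by
  obtain ⟨g, hg, D₀, h0⟩ := exists_genusR K F
  refine ⟨Divisor.degree D₀ + g, fun D hD => ?_⟩
  have h := exists_ell_eq_of_degree_ge hg h0 D hD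
  refine ⟨subsingleton_H1_of_ell_eq hg h, ?_⟩
  rw [← riemann_genus_eq hg h0]
  exact h

/-- `h¹` is antitone -/
theorem h1_anti [IsAlgClosed K] [IsFF1 K F] {D D' : Divisor K F} (h : D ≤ D') : h1 D' ≤ h1 D := by
  have h1 := riemann D
  have h2 := riemann D'
  have h3 := ell_sub_le h
  omega

end Fermat.Agent.GAL.FF
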