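import Fermat.Agent.S24.FF.RiemannHurwitz
import Fermat.Agent.S24.FF.KaehlerField
import Fermat.Prelude.Def_AlgebraicCurve_IsCurveOver

/-!
# GAL / FF / package FF-R6 : bridge between `IsFF1` and the prelude's `IsCurveOver`
-/

set_option autoImplicit false

namespace Fermat.Agent.GAL.FF

open AlgebraicCurve IntermediateField Fermat.Agent.S24.FF

variable {K F : Type*} [Field K] [Field F] [Algebra K F]

/-- in characteristic zero the differential of an algebraic element vanishes. -/
theorem Bridge_D_eq_zero_of_isAlgebraic [CharZero K] {t : F} (ht : IsAlgebraic K t) :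
    KaehlerDifferential.D K F t = 0 := by
  have hint : IsIntegral K t := ht.isIntegral
  have hsep : (minpoly K t).Separable := (minpoly.irreducible hint).separable
  have h1 := (KaehlerDifferential.D K F).map_aeval (minpoly K t) t
  rw [minpoly.aeval, map_zero] at h1
  have h2 : Polynomial.aeval t (Polynomial.derivative (minpoly K t)) ≠ 0 :=
    hsep.aeval_derivative_ne_zero (minpoly.aeval K t)
  exact (smul_eq_zero.mp h1.symm).resolve_left h2

/-- a finitely generated field extension of characteristic zero whose module of differentials has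
rank one is a function field in one variable. -/
theorem isFF1_of_finrank_kaehler [CharZero K] [Algebra.EssFiniteType K F]
    (h : Module.finrank F (Ω[F⁄K]) = 1) : IsFF1 K F := by
  classical
  -- some `D t` is nonzero
  obtain ⟨t, ht⟩ : ∃ t : F, KaehlerDifferential.D K F t ≠ 0 := by
    by_contra hcon
    push Not at hcon
    have hspan := KaehlerDifferential.span_range_derivation K F
    have hle : Submodule.span F (Set.range (KaehlerDifferential.D K F)) ≤ ⊥ := by
      rw [Submodule.span_le]
      rintro _ ⟨x, rfl⟩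
      simp [hcon x]
    rw [hspan, top_le_iff] at hle
    have : Module.finrank F (Ω[F⁄K]) = 0 := by
      rw [← finrank_top, ← hle, finrank_bot]
    omega
  have htr : Transcendental K t := fun halg => ht (Bridge_D_eq_zero_of_isAlgebraic halg)
  refine ⟨t, htr, ?_⟩
  have hgen : ∀ w : Ω[F⁄K], ∃ c : F, c • KaehlerDifferential.D K F t = w :=
    (finrank_eq_one_iff_of_nonzero' _ ht).mp h
  have hsub : Subsingleton (Ω[F⁄K⟮t⟯]) := by
    refine subsingleton_of_forall_eq 0 fun w => ?_
    obtain ⟨w', rfl⟩ := KaehlerDifferential.map_surjective K K⟮t⟯ F w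
    obtain ⟨c, rfl⟩ := hgen w'
    rw [map_smul, KaehlerDifferential.map_D]
    have h0 : KaehlerDifferential.D K⟮t⟯ F (algebraMap F F t) = 0 := by
      have : algebraMap F F t = algebraMap K⟮t⟯ F ⟨t, mem_adjoin_simple_self K t⟩ := rfl
      rw [this, Derivation.map_algebraMap]
    rw [h0, smul_zero]
  have : Algebra.FormallyUnramified K⟮t⟯ F := ⟨hsub⟩
  have : Algebra.EssFiniteType K⟮t⟯ F := Algebra.EssFiniteType.of_comp K K⟮t⟯ F
  exact Algebra.FormallyUnramified.finite_of_free K⟮t⟯ F

theorem isFF1_of_isCurveOver [CharZero K] [IsCurveOver K F] [Algebra.EssFiniteType K F] :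
    IsFF1 K F :=
  isFF1_of_finrank_kaehler IsCurveOver.finrank_kaehler

theorem essFiniteType_of_isFF1 [IsFF1 K F] : Algebra.EssFiniteType K F := by
  obtain ⟨t, -, hfin⟩ := IsFF1.exists_transcendental (K := K) (F := F)
  have h1 : Algebra.EssFiniteType K K⟮t⟯ :=
    IntermediateField.essFiniteType_iff.mpr ⟨{t}, by simp⟩
  exact Algebra.EssFiniteType.comp K K⟮t⟯ F

theorem isCurveOver_of_isFF1 [IsAlgClosed K] [CharZero K] [IsFF1 K F] : IsCurveOver K F := by
  obtain ⟨t, ht, -⟩ := IsFF1.exists_transcendental (K := K) (F := F)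
  obtain ⟨e, -⟩ := exists_kaehler_equiv ht
  refine { toHasPrincipalDivisors := ⟨fun f hf => ?_⟩, finiteResidue := ?_,
           kaehler_free_rank_one := ⟨Module.Free.of_equiv e.symm, ?_⟩ }
  · obtain ⟨D, hD⟩ := exists_divisor_of_ne_zero (K := K) f
    exact ⟨D, hD, degree_eq_zero_of_principal hf D hD⟩
  · intro v
    have hbij := algebraMap_residueField_bijective (K := K) v
    exact Module.Finite.equiv (AlgEquiv.ofBijective (Algebra.ofId K v.ResidueField) hbij).toLinearEquiv
  · rw [e.finrank_eq, Module.finrank_self]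

end Fermat.Agent.GAL.FF
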