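import Fermat.Agent.GAL.FF.Places

/-!
# GAL / FF : algebraic constant field extensions are unramified  (FF-const)

`K` perfect, `K'` algebraically closed and algebraic over `K`, `F / K` and `F' / K'` function
fields, `ι : F → F'` with `F' = K' (ι F)`.  Every place of `F` lies under a place of `F'`, and
`ord_{P'} (ι f) = ord_P f`.
-/

set_option autoImplicit false
set_option linter.unusedSectionVars false

namespace Fermat.Agent.GAL.FF

open AlgebraicCurve IntermediateField Fermat.Agent.S24.FF Polynomial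

namespace ConstExt

section general

variable {K F : Type*} [Field K] [Field F] [Algebra K F]

/-- `x = 0` or `ord_v x > 0`. -/
def Pos (v : Place K F) (x : F) : Prop := x = 0 ∨ 0 < v.ord x

theorem Pos.add {v : Place K F} {x y : F} (hx : Pos v x) (hy : Pos v y) : Pos v (x + y) := by
  by_cases h : x + y = 0
  · exact Or.inl h
  rcases hx with rfl | hx
  · rw [zero_add]; exact hy
  rcases hy with rfl | hy
  · rw [add_zero]; exact Or.inr hx
  exact Or.inr (lt_of_lt_of_le (lt_min hx hy) (min_ord_le_ord_add v h))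

theorem Pos.neg {v : Place K F} {x : F} (hx : Pos v x) : Pos v (-x) := by
  rcases hx with rfl | hx
  · exact Or.inl neg_zero
  · exact Or.inr (by rwa [ord_neg])

theorem Pos.sub {v : Place K F} {x y : F} (hx : Pos v x) (hy : Pos v y) : Pos v (x - y) := by
  rw [sub_eq_add_neg]; exact hx.add hy.neg

theorem Pos.mul {v : Place K F} {x y : F} (hx : Pos v x) (hy : 0 ≤ v.ord y) : Pos v (x * y) := by
  rcases hx with rfl | hx
  · exact Or.inl (zero_mul y)
  rcases eq_or_ne y 0 with rfl | hy0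
  · exact Or.inl (mul_zero x)
  have hx0 : x ≠ 0 := ne_zero_of_ord_ne_zero v hx.ne'
  exact Or.inr (by rw [v.ord_mul hx0 hy0]; omega)

theorem not_pos_algebraMap (v : Place K F) {c : K} (hc : c ≠ 0) : ¬ Pos v (algebraMap K F c) := by
  rintro (h | h)
  · exact hc (by simpa using h)
  · rw [ord_algebraMap] at h; exact lt_irrefl _ h

theorem ord_add_algebraMap {v : Place K F} {x : F} (hx : Pos v x) {c : K} (hc : c ≠ 0) :
    x + algebraMap K F c ≠ 0 ∧ v.ord (x + algebraMap K F c) = 0 := by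
  have hc' : algebraMap K F c ≠ 0 := by simpa using hc
  rcases hx with rfl | hx
  · rw [zero_add]; exact ⟨hc', ord_algebraMap v c⟩
  have hx0 : x ≠ 0 := ne_zero_of_ord_ne_zero v hx.ne'
  have h1 : v.ord (algebraMap K F c + x) = v.ord (algebraMap K F c) :=
    ord_add_eq_of_lt v hc' hx0 (by rw [ord_algebraMap]; exact hx)
  rw [add_comm, h1, ord_algebraMap]
  refine ⟨fun h => ?_, rfl⟩
  have h2 : x = - algebraMap K F c := by linear_combination h
  rw [h2, ord_neg, ord_algebraMap] at hx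
  exact lt_irrefl _ hx

/-- the `K`-algebra of `v`-integral functions. -/
def intAlg (v : Place K F) : Subalgebra K F :=
  { v.toValuationSubring.toSubring with algebraMap_mem' := v.algebraMap_mem' }

theorem mem_intAlg {v : Place K F} {x : F} : x ∈ intAlg v ↔ 0 ≤ v.ord x :=
  ⟨fun h => ord_nonneg_of_mem v h, fun h => mem_toValuationSubring_of_ord_nonneg v h⟩

theorem aeval_mem_of_mem (S : Subalgebra K F) {x : F} (hx : x ∈ S) (p : K[X]) :
    aeval x p ∈ S := by
  have := Polynomial.aeval_subalgebra_coe p S ⟨x, hx⟩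
  rw [← this]
  exact (aeval (⟨x, hx⟩ : S) p).2

theorem aeval_eq_sub_mul (x : F) (c : K) (p : K[X]) :
    aeval x p = (x - algebraMap K F c) * aeval x (p /ₘ (X - C c)) + algebraMap K F (p.eval c) := by
  have h := Polynomial.modByMonic_add_div p (X - C c)
  rw [Polynomial.modByMonic_X_sub_C_eq_C_eval] at h
  conv_lhs => rw [← h]
  simp only [map_add, map_mul, map_sub, aeval_X, aeval_C]
  ring

/-- `p(x) ≡ p(c)` if `x ≡ c`. -/
theorem pos_aeval_sub {v : Place K F} {x : F} (hx : 0 ≤ v.ord x) {c : K}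
    (h : Pos v (x - algebraMap K F c)) (p : K[X]) :
    Pos v (aeval x p - algebraMap K F (p.eval c)) := by
  rw [aeval_eq_sub_mul x c p, add_sub_cancel_right]
  exact h.mul (mem_intAlg.mp (aeval_mem_of_mem _ (mem_intAlg.mpr hx) _))

/-- a valuation ring contains everything integral over a ring mapping to it. -/
theorem mem_of_isIntegralElem (A : ValuationSubring F) {R : Type*} [CommRing R] (φ : R →+* F)
    (hφ : ∀ r, φ r ∈ A) {z : F} (hz : φ.IsIntegralElem z) : z ∈ A := by
  obtain ⟨p, hp, hpz⟩ := hz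
  let ψ : R →+* A := φ.codRestrict A.toSubring hφ
  have hint : IsIntegral A z := by
    refine ⟨p.map ψ, hp.map ψ, ?_⟩
    rw [Polynomial.eval₂_map]
    have : (algebraMap A F).comp ψ = φ := by
      ext r; rfl
    rw [this]; exact hpz
  obtain ⟨y, hy⟩ := (IsIntegrallyClosed.isIntegral_iff (R := A) (K := F)).mp hint
  rw [← hy]; exact y.2

/-- every integral function satisfies a separable polynomial modulo the place. -/
theorem exists_separable_pos [PerfectField K] [IsFF1 K F] (v : Place K F) {f : F}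
    (hf : 0 ≤ v.ord f) : ∃ g : K[X], g.Separable ∧ Pos v (aeval f g) := by
  have halg := isAlgebraic_residueField (K := K) v
  let a : v.toValuationSubring := ⟨f, mem_toValuationSubring_of_ord_nonneg v hf⟩
  let r : v.ResidueField := IsLocalRing.residue _ a
  refine ⟨minpoly K r, Algebra.IsSeparable.isSeparable K r, ?_⟩
  have h1 : aeval f (minpoly K r) = ((aeval a (minpoly K r) : v.toValuationSubring) : F) :=
    Polynomial.aeval_algebraMap_apply F a (minpoly K r)
  have h2 : aeval a (minpoly K r) ∈ IsLocalRing.maximalIdeal v.toValuationSubring := by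
    rw [← IsLocalRing.residue_eq_zero_iff]
    have h3 : IsLocalRing.residue v.toValuationSubring (aeval a (minpoly K r))
        = aeval r (minpoly K r) :=
      (Polynomial.aeval_algebraMap_apply v.ResidueField a (minpoly K r)).symm
    rw [h3, minpoly.aeval]
  by_cases h0 : aeval a (minpoly K r) = 0
  · left; rw [h1, h0]; rfl
  · right; rw [h1]; exact ord_pos_of_mem_maximalIdeal v h2 h0

end general

section ext

variable {K K' F F' : Type*} [Field K] [Field K'] [Field F] [Field F'] [Algebra K F]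
  [Algebra K' F']

/-- if `P'` lies above `P` then `ord_{P'} ∘ ι = e ord_P`. -/
theorem ord_map_eq_mul (ι : F →+* F') (P : Place K F) (P' : Place K' F')
    (h : ∀ f : F, 0 < P.ord f → 0 < P'.ord (ι f)) {π : F} (hπ : P.ord π = 1) (f : F) :
    P'.ord (ι f) = P'.ord (ι π) * P.ord f := by
  have hπ0 : π ≠ 0 := ne_zero_of_ord_ne_zero P (by rw [hπ]; exact one_ne_zero)
  have he : 0 < P'.ord (ι π) := h π (by rw [hπ]; exact one_pos)
  set e := P'.ord (ι π) with he_def
  have hunit : ∀ u : F, u ≠ 0 → P.ord u = 0 → P'.ord (ι u) = 0 := by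
    intro u hu0 hu
    have key : ∀ k : ℤ, 0 < k * P'.ord (ι u) + e := by
      intro k
      have h1 : 0 < P.ord (u ^ k * π) := by
        rw [P.ord_mul (zpow_ne_zero k hu0) hπ0, P.ord_zpow, hu, hπ]; norm_num
      have h2 := h _ h1
      rw [map_mul, map_zpow₀, P'.ord_mul (zpow_ne_zero k ((map_ne_zero ι).mpr hu0))
        ((map_ne_zero ι).mpr hπ0), P'.ord_zpow] at h2
      exact h2
    by_contra hm
    rcases lt_or_gt_of_ne hm with hm | hm
    · have := key e
      nlinarith
    · have := key (-e)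
      nlinarith
  rcases eq_or_ne f 0 with rfl | hf
  · simp
  have hu := hunit (f * π ^ (-(P.ord f))) (mul_ne_zero hf (zpow_ne_zero _ hπ0))
    (by rw [P.ord_mul hf (zpow_ne_zero _ hπ0), P.ord_zpow, hπ]; ring)
  rw [map_mul, map_zpow₀, P'.ord_mul ((map_ne_zero ι).mpr hf)
    (zpow_ne_zero _ ((map_ne_zero ι).mpr hπ0)), P'.ord_zpow] at hu
  linarith

end ext

section main

variable {K K' F F' : Type*} [Field K] [Field K'] [Field F] [Field F'] [Algebra K K'] [Algebra K F]
  [Algebra K' F'] [Algebra K F'] [IsScalarTower K K' F']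

/-- `K'[ι O_P]`. -/
def RR (K' : Type*) [Field K'] [Algebra K' F'] (ι : F →ₐ[K] F') (P : Place K F) :
    Subalgebra K' F' :=
  Algebra.adjoin K' (ι '' {f | 0 ≤ P.ord f})

theorem map_mem_RR (ι : F →ₐ[K] F') (P : Place K F) {f : F} (hf : 0 ≤ P.ord f) :
    ι f ∈ RR K' ι P :=
  Algebra.subset_adjoin ⟨f, hf, rfl⟩

/-- `x ∈ ι π R'` up to a `P'`-unit of `R'`. -/
def JJ (ι : F →ₐ[K] F') (P : Place K F) (P' : Place K' F') (π : F) (x : F') : Prop :=
  ∃ s ∈ RR K' ι P, ∃ y ∈ RR K' ι P, s ≠ 0 ∧ P'.ord s = 0 ∧ s * x = ι π * y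

theorem JJ.zero (ι : F →ₐ[K] F') (P : Place K F) (P' : Place K' F') (π : F) :
    JJ ι P P' π 0 :=
  ⟨1, one_mem _, 0, zero_mem _, one_ne_zero, P'.ord_one, by simp⟩

theorem JJ.add {ι : F →ₐ[K] F'} {P : Place K F} {P' : Place K' F'} {π : F} {x y : F'}
    (hx : JJ ι P P' π x) (hy : JJ ι P P' π y) : JJ ι P P' π (x + y) := by
  obtain ⟨s, hs, a, ha, hs0, hso, h1⟩ := hx
  obtain ⟨t, ht, b, hb, ht0, hto, h2⟩ := hy
  refine ⟨s * t, mul_mem hs ht, t * a + s * b, add_mem (mul_mem ht ha) (mul_mem hs hb),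
    mul_ne_zero hs0 ht0, by rw [P'.ord_mul hs0 ht0, hso, hto, add_zero], ?_⟩
  linear_combination t * h1 + s * h2

theorem JJ.mul {ι : F →ₐ[K] F'} {P : Place K F} {P' : Place K' F'} {π : F} {x r : F'}
    (hx : JJ ι P P' π x) (hr : r ∈ RR K' ι P) : JJ ι P P' π (x * r) := by
  obtain ⟨s, hs, a, ha, hs0, hso, h1⟩ := hx
  refine ⟨s, hs, a * r, mul_mem ha hr, hs0, hso, ?_⟩
  linear_combination r * h1

variable [PerfectField K] [IsAlgClosed K'] [IsFF1 K F] [IsFF1 K' F']

theorem RR_le (ι : F →ₐ[K] F') (P : Place K F) (P' : Place K' F')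
    (h : ∀ f : F, 0 < P.ord f → 0 < P'.ord (ι f)) : RR K' ι P ≤ intAlg P' := by
  obtain ⟨π, hπ⟩ := exists_ord_eq_one P
  refine Algebra.adjoin_le ?_
  rintro _ ⟨f, hf, rfl⟩
  have hf' : 0 ≤ P.ord f := hf
  have he : 0 < P'.ord (ι π) := h π (by rw [hπ]; exact one_pos)
  show ι f ∈ intAlg P'
  rw [mem_intAlg]
  have := ord_map_eq_mul (ι : F →+* F') P P' h hπ f
  simp only [AlgHom.coe_toRingHom] at this
  rw [this]
  positivity

theorem JJ_generator (ι : F →ₐ[K] F') (P : Place K F) (P' : Place K' F')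
    (h : ∀ f : F, 0 < P.ord f → 0 < P'.ord (ι f)) {π : F} (hπ : P.ord π = 1) {f : F}
    (hf : 0 ≤ P.ord f) : ∃ c : K', JJ ι P P' π (ι f - algebraMap K' F' c) := by
  have hπ0 : π ≠ 0 := ne_zero_of_ord_ne_zero P (by rw [hπ]; exact one_ne_zero)
  have hxR : ι f ∈ RR K' ι P := map_mem_RR ι P hf
  have hx : 0 ≤ P'.ord (ι f) := mem_intAlg.mp (RR_le ι P P' h hxR)
  obtain ⟨g, hg, hgf⟩ := exists_separable_pos P hf
  obtain ⟨c, hc⟩ := exists_ord_sub_pos P' hx
  have hc' : Pos P' (ι f - algebraMap K' F' c) := by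
    rcases hc with hc | hc
    · left; rw [hc, sub_self]
    · right; exact hc
  refine ⟨c, ?_⟩
  set G : K'[X] := g.map (algebraMap K K') with hG
  have hGx : aeval (ι f) G = ι (aeval f g) := by
    rw [hG, Polynomial.aeval_map_algebraMap, Polynomial.aeval_algHom_apply]
  have hpos : Pos P' (aeval (ι f) G) := by
    rw [hGx]
    rcases hgf with h0 | h0
    · left; rw [h0, map_zero]
    · right; exact h _ h0
  have hGc : G.eval c = 0 := by
    by_contra hne
    apply not_pos_algebraMap P' hne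
    have := hpos.sub (pos_aeval_sub hx hc' G)
    rwa [sub_sub_cancel] at this
  set Q : K'[X] := G /ₘ (X - C c) with hQ
  have hfac : (X - C c) * Q = G := Polynomial.mul_divByMonic_eq_iff_isRoot.mpr hGc
  have hGsep : G.Separable := hg.map
  have hQc : Q.eval c ≠ 0 := by
    have h1 := hGsep.eval₂_derivative_ne_zero (RingHom.id K') (x := c)
      (by rw [Polynomial.eval₂_id]; exact hGc)
    rw [Polynomial.eval₂_id, ← hfac] at h1
    simpa using h1
  have hs := ord_add_algebraMap (pos_aeval_sub hx hc' Q) hQc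
  rw [sub_add_cancel] at hs
  -- `aeval f g = π y₀`
  have hy0 : 0 ≤ P.ord (aeval f g * π⁻¹) := by
    rcases hgf with h0 | h0
    · rw [h0, zero_mul, P.ord_zero]
    · rw [P.ord_mul (ne_zero_of_ord_ne_zero P h0.ne') (inv_ne_zero hπ0), P.ord_inv, hπ]
      omega
  refine ⟨aeval (ι f) Q, aeval_mem_of_mem _ hxR Q, ι (aeval f g * π⁻¹), map_mem_RR ι P hy0,
    hs.1, hs.2, ?_⟩
  have h2 := aeval_eq_sub_mul (ι f) c G
  rw [hGc, map_zero, add_zero, hGx] at h2
  rw [← map_mul, mul_comm (aeval (ι f) Q), ← h2]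
  congr 1
  field_simp

theorem JJ_of_mem (ι : F →ₐ[K] F') (P : Place K F) (P' : Place K' F')
    (h : ∀ f : F, 0 < P.ord f → 0 < P'.ord (ι f)) {π : F} (hπ : P.ord π = 1) {x : F'}
    (hx : x ∈ RR K' ι P) : ∃ c : K', JJ ι P P' π (x - algebraMap K' F' c) := by
  induction hx using Algebra.adjoin_induction with
  | mem x hx =>
    obtain ⟨f, hf, rfl⟩ := hx
    exact JJ_generator ι P P' h hπ hf
  | algebraMap r => exact ⟨r, by rw [sub_self]; exact JJ.zero ι P P' π⟩
  | add x y hx hy h1 h2 =>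
    obtain ⟨c, hc⟩ := h1
    obtain ⟨d, hd⟩ := h2
    refine ⟨c + d, ?_⟩
    have := hc.add hd
    rw [map_add]
    convert this using 1
    ring
  | mul x y hx hy h1 h2 =>
    obtain ⟨c, hc⟩ := h1
    obtain ⟨d, hd⟩ := h2
    refine ⟨c * d, ?_⟩
    have := (hc.mul hy).add (hd.mul (Subalgebra.algebraMap_mem (RR K' ι P) c))
    rw [map_mul]
    convert this using 1
    ring

theorem JJ_of_pos (ι : F →ₐ[K] F') (P : Place K F) (P' : Place K' F')
    (h : ∀ f : F, 0 < P.ord f → 0 < P'.ord (ι f)) {π : F} (hπ : P.ord π = 1) {x : F'}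
    (hx : x ∈ RR K' ι P) (hpos : Pos P' x) : JJ ι P P' π x := by
  obtain ⟨c, hc⟩ := JJ_of_mem ι P P' h hπ hx
  suffices hc0 : c = 0 by
    rw [hc0, map_zero, sub_zero] at hc; exact hc
  by_contra hne
  obtain ⟨s, hs, y, hy, hs0, hso, heq⟩ := hc
  have hle := RR_le ι P P' h
  have h1 : Pos P' (ι π * y) :=
    Pos.mul (Or.inr (h π (by rw [hπ]; exact one_pos))) (mem_intAlg.mp (hle hy))
  have h2 : Pos P' (x * s) := hpos.mul (mem_intAlg.mp (hle hs))
  have h3 : Pos P' (s * algebraMap K' F' c) := by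
    have := h2.sub h1
    rw [← heq] at this
    convert this using 1
    ring
  have hc' : algebraMap K' F' c ≠ 0 := by simpa using hne
  rcases h3 with h3 | h3
  · exact mul_ne_zero hs0 hc' h3
  · rw [P'.ord_mul hs0 hc', hso, ord_algebraMap] at h3
    exact lt_irrefl _ h3

theorem dvd_ord_of_mem (ι : F →ₐ[K] F') (P : Place K F) (P' : Place K' F')
    (h : ∀ f : F, 0 < P.ord f → 0 < P'.ord (ι f)) {π : F} (hπ : P.ord π = 1) (n : ℕ) :
    ∀ x ∈ RR K' ι P, x ≠ 0 → P'.ord x = n → P'.ord (ι π) ∣ (n : ℤ) := by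
  have he : 0 < P'.ord (ι π) := h π (by rw [hπ]; exact one_pos)
  have hπ0 : ι π ≠ 0 := ne_zero_of_ord_ne_zero P' he.ne'
  induction n using Nat.strong_induction_on with
  | _ n ih =>
    intro x hx hx0 hn
    rcases Nat.eq_zero_or_pos n with rfl | hpos
    · simp
    obtain ⟨s, hs, y, hy, hs0, hso, heq⟩ :=
      JJ_of_pos ι P P' h hπ hx (Or.inr (by rw [hn]; exact_mod_cast hpos))
    have hy0 : y ≠ 0 := by
      rintro rfl
      rw [mul_zero] at heq
      exact mul_ne_zero hs0 hx0 heq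
    have hord := congrArg P'.ord heq
    rw [P'.ord_mul hs0 hx0, P'.ord_mul hπ0 hy0, hso, zero_add, hn] at hord
    have hynn : 0 ≤ P'.ord y := mem_intAlg.mp (RR_le ι P P' h hy)
    obtain ⟨m, hm⟩ := Int.eq_ofNat_of_zero_le hynn
    have hlt : m < n := by omega
    have := ih m hlt y hy hy0 hm
    rw [hord, hm]
    exact dvd_add (dvd_refl _) this

theorem exists_div_of_mem (ι : F →ₐ[K] F') (P : Place K F) {z : F'}
    (hz : z ∈ IntermediateField.adjoin K' (Set.range ι)) :
    ∃ a ∈ RR K' ι P, ∃ b ∈ RR K' ι P, b ≠ 0 ∧ z * b = a := by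
  induction hz using IntermediateField.adjoin_induction with
  | mem x hx =>
    obtain ⟨f, rfl⟩ := hx
    rcases le_total 0 (P.ord f) with hf | hf
    · exact ⟨ι f, map_mem_RR ι P hf, 1, one_mem _, one_ne_zero, mul_one _⟩
    · rcases eq_or_ne f 0 with rfl | hf0
      · exact ⟨0, zero_mem _, 1, one_mem _, one_ne_zero, by simp⟩
      · refine ⟨1, one_mem _, ι f⁻¹, map_mem_RR ι P (by rw [P.ord_inv]; omega),
          (map_ne_zero ι).mpr (inv_ne_zero hf0), ?_⟩
        rw [← map_mul, mul_inv_cancel₀ hf0, map_one]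
  | algebraMap r =>
    exact ⟨algebraMap K' F' r, Subalgebra.algebraMap_mem _ r, 1, one_mem _, one_ne_zero, mul_one _⟩
  | add x y hx hy h1 h2 =>
    obtain ⟨a, ha, b, hb, hb0, h1⟩ := h1
    obtain ⟨c, hc, d, hd, hd0, h2⟩ := h2
    refine ⟨a * d + c * b, add_mem (mul_mem ha hd) (mul_mem hc hb), b * d, mul_mem hb hd,
      mul_ne_zero hb0 hd0, ?_⟩
    rw [← h1, ← h2]; ring
  | inv x hx h1 =>
    obtain ⟨a, ha, b, hb, hb0, h1⟩ := h1
    rcases eq_or_ne x 0 with rfl | hx0
    · exact ⟨0, zero_mem _, 1, one_mem _, one_ne_zero, by simp⟩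
    · refine ⟨b, hb, a, ha, ?_, ?_⟩
      · rw [← h1]; exact mul_ne_zero hx0 hb0
      · rw [← h1]; field_simp
  | mul x y hx hy h1 h2 =>
    obtain ⟨a, ha, b, hb, hb0, h1⟩ := h1
    obtain ⟨c, hc, d, hd, hd0, h2⟩ := h2
    refine ⟨a * c, mul_mem ha hc, b * d, mul_mem hb hd, mul_ne_zero hb0 hd0, ?_⟩
    rw [← h1, ← h2]; ring

end main

end ConstExt

open ConstExt

variable {K K' F F' : Type*} [Field K] [Field K'] [Field F] [Field F'] [Algebra K K'] [Algebra K F]
  [Algebra K' F'] [Algebra K F'] [IsScalarTower K K' F'] [PerfectField K]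
  [IsAlgClosed K'] [IsFF1 K F] [IsFF1 K' F']

/-- **Constant field extensions are unramified.**  If `P'` lies above `P` then
`ord_{P'} (ι f) = ord_P f`. -/
theorem ord_constExt (ι : F →ₐ[K] F') (hgen : IntermediateField.adjoin K' (Set.range ι) = ⊤)
    (P : Place K F) (P' : Place K' F') (h : ∀ f : F, 0 < P.ord f → 0 < P'.ord (ι f)) (f : F) :
    P'.ord (ι f) = P.ord f := by
  obtain ⟨π, hπ⟩ := exists_ord_eq_one P
  have he : 0 < P'.ord (ι π) := h π (by rw [hπ]; exact one_pos)
  have hle := RR_le ι P P' h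
  have hdvd : ∀ x ∈ RR K' ι P, x ≠ 0 → P'.ord (ι π) ∣ P'.ord x := by
    intro x hx hx0
    obtain ⟨m, hm⟩ := Int.eq_ofNat_of_zero_le (mem_intAlg.mp (hle hx))
    rw [hm]
    exact dvd_ord_of_mem ι P P' h hπ m x hx hx0 hm
  obtain ⟨z, hz⟩ := exists_ord_eq_one P'
  have hz0 : z ≠ 0 := ne_zero_of_ord_ne_zero P' (by rw [hz]; exact one_ne_zero)
  obtain ⟨a, ha, b, hb, hb0, hab⟩ := exists_div_of_mem ι P (z := z) (by rw [hgen]; trivial)
  have ha0 : a ≠ 0 := by rw [← hab]; exact mul_ne_zero hz0 hb0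
  have h1 : P'.ord (ι π) ∣ 1 := by
    have h2 := congrArg P'.ord hab
    rw [P'.ord_mul hz0 hb0, hz] at h2
    have h3 : (1 : ℤ) = P'.ord a - P'.ord b := by omega
    rw [h3]
    exact dvd_sub (hdvd a ha ha0) (hdvd b hb hb0)
  have he1 : P'.ord (ι π) = 1 := Int.eq_one_of_dvd_one he.le h1
  have := ord_map_eq_mul (ι : F →+* F') P P' h hπ f
  simp only [AlgHom.coe_toRingHom] at this
  rw [this, he1, one_mul]

/-- every place of `F` lies under a place of `F'`, which is unramified. -/
theorem exists_place_constExt [Algebra.IsAlgebraic K K'] (ι : F →ₐ[K] F')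
    (hgen : IntermediateField.adjoin K' (Set.range ι) = ⊤) (P : Place K F) :
    ∃ P' : Place K' F', ∀ f : F, P'.ord (ι f) = P.ord f := by
  obtain ⟨A, hA, hloc⟩ := IsLocalRing.exists_factor_valuationRing
    ((ι : F →+* F').comp P.toValuationSubring.subtype)
  have hAK : ∀ a : K, algebraMap K F' a ∈ A := by
    intro a
    have := hA (algebraMap K P.toValuationSubring a)
    simpa using this
  have hAK' : ∀ c : K', algebraMap K' F' c ∈ A := by
    intro c
    refine mem_of_isIntegralElem A (algebraMap K F') hAK ?_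
    have h1 : IsIntegral K c := Algebra.IsIntegral.isIntegral c
    exact h1.map (IsScalarTower.toAlgHom K K' F')
  -- nonunits go to nonunits
  have hnon : ∀ f : F, 0 < P.ord f → ι f ∈ A ∧ (ι f)⁻¹ ∉ A := by
    intro f hf
    have hf0 : f ≠ 0 := ne_zero_of_ord_ne_zero P hf.ne'
    have hmem : f ∈ P.toValuationSubring := mem_toValuationSubring_of_ord_nonneg P hf.le
    refine ⟨hA ⟨f, hmem⟩, fun hinv => ?_⟩
    have hu : IsUnit ((((ι : F →+* F').comp P.toValuationSubring.subtype).codRestrict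
        A.toSubring hA) ⟨f, hmem⟩) := by
      refine IsUnit.of_mul_eq_one ⟨(ι f)⁻¹, hinv⟩ ?_
      apply Subtype.ext
      exact mul_inv_cancel₀ ((map_ne_zero ι).mpr hf0)
    obtain ⟨u, hu⟩ := hloc.map_nonunit _ hu
    have := P.ord_coe_unit u
    rw [hu] at this
    exact hf.ne' this
  obtain ⟨π, hπ⟩ := exists_ord_eq_one P
  have htop : A ≠ ⊤ := by
    rintro rfl
    exact (hnon π (by rw [hπ]; exact one_pos)).2 (ValuationSubring.mem_top _)
  obtain ⟨P', hP'⟩ := exists_place_of_valuationSubring A hAK' htop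
  refine ⟨P', ord_constExt ι hgen P P' fun f hf => ?_⟩
  obtain ⟨h1, h2⟩ := hnon f hf
  rw [← hP'] at h1 h2
  have h3 := ord_nonneg_of_mem P' h1
  refine lt_of_le_of_ne h3 fun h4 => h2 ?_
  apply mem_toValuationSubring_of_ord_nonneg
  rw [P'.ord_inv, ← h4, neg_zero]

/-- every place of `F'` lies above a place of `F`, and is unramified over it. -/
theorem exists_place_under_constExt [Algebra.IsAlgebraic K K'] (ι : F →ₐ[K] F')
    (hgen : IntermediateField.adjoin K' (Set.range ι) = ⊤) (P' : Place K' F') :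
    ∃ P : Place K F, ∀ f : F, P'.ord (ι f) = P.ord f := by
  set O : ValuationSubring F := P'.toValuationSubring.comap (ι : F →+* F') with hO
  have hmemO : ∀ f : F, f ∈ O ↔ ι f ∈ P'.toValuationSubring := fun f => Iff.rfl
  have hK : ∀ a : K, algebraMap K F a ∈ O := by
    intro a
    rw [hmemO, ι.commutes, IsScalarTower.algebraMap_apply K K' F']
    exact P'.algebraMap_mem' _
  have htop : O ≠ ⊤ := by
    intro htop
    apply P'.ne_top'
    have hall : ∀ f : F, (ι : F →+* F') f ∈ P'.toValuationSubring := fun f =>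
      (hmemO f).mp (by rw [htop]; exact ValuationSubring.mem_top _)
    let _ : Algebra F F' := (ι : F →+* F').toAlgebra
    have htower : IsScalarTower K F F' := IsScalarTower.of_algebraMap_eq fun a => (ι.commutes a).symm
    have hint : ∀ z ∈ IntermediateField.adjoin K' (Set.range ι), IsIntegral F z := by
      intro z hz
      induction hz using IntermediateField.adjoin_induction with
      | mem x hx =>
        obtain ⟨f, rfl⟩ := hx
        exact isIntegral_algebraMap (R := F) (A := F') (x := f)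
      | algebraMap c =>
        have h1 : IsIntegral K c := Algebra.IsIntegral.isIntegral c
        exact (h1.map (IsScalarTower.toAlgHom K K' F')).tower_top
      | add x y hx hy h1 h2 => exact h1.add h2
      | inv x hx h1 => exact h1.inv
      | mul x y hx hy h1 h2 => exact h1.mul h2
    refine SetLike.ext fun z => ⟨fun _ => ValuationSubring.mem_top z, fun _ => ?_⟩
    exact mem_of_isIntegralElem _ (ι : F →+* F') hall (hint z (by rw [hgen]; trivial))
  obtain ⟨P, hP⟩ := exists_place_of_valuationSubring O hK htop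
  refine ⟨P, ord_constExt ι hgen P P' fun f hf => ?_⟩
  have hf0 : f ≠ 0 := ne_zero_of_ord_ne_zero P hf.ne'
  have h1 : ι f ∈ P'.toValuationSubring := by
    rw [← hmemO, ← hP]; exact mem_toValuationSubring_of_ord_nonneg P hf.le
  have h3 := ord_nonneg_of_mem P' h1
  refine lt_of_le_of_ne h3 fun h4 => ?_
  have h5 : ι f⁻¹ ∈ P'.toValuationSubring := by
    apply mem_toValuationSubring_of_ord_nonneg
    rw [map_inv₀, P'.ord_inv, ← h4, neg_zero]
  rw [← hmemO, ← hP] at h5
  have := ord_nonneg_of_mem P h5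
  rw [P.ord_inv] at this
  omega

end Fermat.Agent.GAL.FF
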