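import Fermat.Agent.GAL.FF.Riemann
import Fermat.Prelude.Def_AlgebraicCurve_Correspondence

/-!
# GAL / FF : finite extensions `F' / F` of function fields, basic facts  (package FF-E1)

Any characteristic, `K` algebraically closed.
-/

set_option autoImplicit false

namespace Fermat.Agent.GAL.FF

open AlgebraicCurve IntermediateField Fermat.Agent.S24.FF

variable {K F F' : Type*} [Field K] [Field F] [Field F']
  [Algebra K F] [Algebra K F'] [Algebra F F'] [IsScalarTower K F F']

theorem transcendental_algebraMap {t : F} (ht : Transcendental K t) :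
    Transcendental K (algebraMap F F' t) :=
  (transcendental_algebraMap_iff (algebraMap F F').injective).mpr ht

variable (K F') in
/-- `K(t) ≃ K(t')`, `t'` the image of `t` in `F'`. -/
noncomputable def ExtBasic_equiv (t : F) : K⟮t⟯ ≃ₐ[K] K⟮algebraMap F F' t⟯ :=
  (equivMap K⟮t⟯ (IsScalarTower.toAlgHom K F F')).trans
    (equivOfEq (by rw [adjoin_map]; simp))

theorem ExtBasic_equiv_coe (t : F) (x : K⟮t⟯) :
    ((ExtBasic_equiv K F' t x : K⟮algebraMap F F' t⟯) : F') = algebraMap F F' (x : F) := rfl

theorem ExtBasic_comp (t : F) :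
    (algebraMap K⟮algebraMap F F' t⟯ F').comp (ExtBasic_equiv K F' t).toRingEquiv.toRingHom =
      (RingEquiv.refl F').toRingHom.comp (algebraMap K⟮t⟯ F') := by
  ext x
  rfl

variable (K F F') in
/-- an inclusion of function fields over `K` is a finite extension. -/
theorem finite_of_isFF1 [IsFF1 K F] [IsFF1 K F'] : Module.Finite F F' := by
  obtain ⟨t, ht, -⟩ := IsFF1.exists_transcendental (K := K) (F := F)
  have hfin : FiniteDimensional K⟮algebraMap F F' t⟯ F' :=
    finiteDimensional_adjoin_of_transcendental (transcendental_algebraMap ht)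
  have h1 : Module.Finite K⟮t⟯ F' := by
    refine Module.Finite.of_equiv_equiv (ExtBasic_equiv K F' t).toRingEquiv.symm
      (RingEquiv.refl F') ?_
    ext x
    obtain ⟨y, rfl⟩ := (ExtBasic_equiv K F' t).toRingEquiv.surjective x
    simp only [RingHom.comp_apply, RingHom.coe_coe, RingEquiv.symm_apply_apply]
    rfl
  exact Module.Finite.of_restrictScalars_finite K⟮t⟯ F F'

/-- a finite extension of a function field is a function field. -/
theorem isFF1_of_finite [IsFF1 K F] [Module.Finite F F'] : IsFF1 K F' := by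
  obtain ⟨t, ht, hfin⟩ := IsFF1.exists_transcendental (K := K) (F := F)
  refine ⟨algebraMap F F' t, transcendental_algebraMap ht, ?_⟩
  have h1 : Module.Finite K⟮t⟯ F' := Module.Finite.trans F F'
  exact Module.Finite.of_equiv_equiv (ExtBasic_equiv K F' t).toRingEquiv
      (RingEquiv.refl F') (ExtBasic_comp t)

theorem finrank_adjoin_algebraMap [Module.Finite F F'] (t : F) :
    Module.finrank K⟮algebraMap F F' t⟯ F' = Module.finrank K⟮t⟯ F * Module.finrank F F' := by
  rw [Module.finrank_mul_finrank K⟮t⟯ F F']
  exact (Algebra.finrank_eq_of_equiv_equiv (ExtBasic_equiv K F' t).toRingEquiv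
      (RingEquiv.refl F') (ExtBasic_comp t)).symm

/-- a function whose only pole is `v`. -/
theorem exists_unique_pole [IsAlgClosed K] [IsFF1 K F] (v : Place K F) :
    ∃ f : F, v.ord f < 0 ∧ ∀ w : Place K F, w ≠ v → 0 ≤ w.ord f := by
  classical
  set g := genusFF K F with hg
  set D : Divisor K F := Finsupp.single v ((g : ℤ) + 1) with hD
  have hdeg : Divisor.degree D = (g : ℤ) + 1 := degree_single_one v _
  have hell : 2 ≤ ell D := by
    have := riemann_ineq D
    rw [hdeg] at this
    omega
  obtain ⟨f, hfD, hf⟩ : ∃ f ∈ riemannRochSpace D, f ∉ Set.range (algebraMap K F) := by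
    by_contra hcon
    push Not at hcon
    have hle : riemannRochSpace D ≤ riemannRochSpace (0 : Divisor K F) := by
      intro f hf
      rw [L_zero]
      obtain ⟨a, ha⟩ := hcon f hf
      exact ⟨a, ha⟩
    have h1 : ell D ≤ ell (0 : Divisor K F) := Submodule.finrank_mono hle
    rw [ell_zero] at h1
    omega
  have hf0 : f ≠ 0 := by
    rintro rfl
    exact hf ⟨0, map_zero _⟩
  rw [mem_riemannRochSpace_iff] at hfD
  have hoff : ∀ w : Place K F, w ≠ v → 0 ≤ w.ord f := by
    intro w hw
    have := (hfD w).resolve_left hf0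
    rw [hD, Finsupp.single_eq_of_ne hw] at this
    simpa using this
  refine ⟨f, ?_, hoff⟩
  by_contra hv
  push Not at hv
  apply hf
  apply mem_range_of_forall_ord_nonneg
  intro w
  by_cases hw : w = v
  · rw [hw]; exact hv
  · exact hoff w hw

theorem inertiaDeg_eq_one [IsAlgClosed K] [IsFF1 K F] [IsFF1 K F'] [Algebra.IsIntegral F F']
    (w : Place K F') : w.inertiaDeg F = 1 := by
  have h := w.deg_restrict_mul_inertiaDeg (F := F)
  rw [deg_eq_one, deg_eq_one, one_mul] at h
  exact h

/-- every place of `F` lies under a place of `F'`. -/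
theorem exists_restrict_eq [IsAlgClosed K] [IsFF1 K F] [IsFF1 K F'] [Algebra.IsIntegral F F']
    (v : Place K F) : ∃ w : Place K F', w.restrict F = v := by
  obtain ⟨f, hfv, hf⟩ := exists_unique_pole v
  have htr : Transcendental K f := transcendental_of_ord_ne_zero v hfv.ne
  obtain ⟨w, hw⟩ := exists_place_ord_neg (transcendental_algebraMap (F' := F') htr)
  refine ⟨w, ?_⟩
  by_contra hne
  have h0 := hf _ hne
  rw [w.ord_restrict f] at hw
  have : (0 : ℤ) ≤ (w.ramificationIndex F : ℤ) * (w.restrict F).ord f :=
    mul_nonneg (Int.natCast_nonneg _) h0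
  omega

theorem fiber_nonempty [IsAlgClosed K] [IsFF1 K F] [IsFF1 K F'] [Algebra.IsIntegral F F']
    (v : Place K F) : (v.fiber F').Nonempty := by
  obtain ⟨w, hw⟩ := exists_restrict_eq (F' := F') v
  exact ⟨w, Place.mem_fiber.mpr hw⟩

end Fermat.Agent.GAL.FF
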