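import Fermat.Agent.GAL.FF.ExtSum
import Fermat.Agent.GAL.FF.Approx

/-!
# GAL / FF : local integral bases  (package FF-E4; FF-E3 = `Approx.lean`)

Any characteristic, `K` algebraically closed.
-/

set_option autoImplicit false

namespace Fermat.Agent.GAL.FF

open AlgebraicCurve IntermediateField Fermat.Agent.S24.FF

section approx

variable {K F : Type*} [Field K] [Field F] [Algebra K F]

/-- functions with `ord_v ≥ n` (and `0`). -/
def ExtLocalBasis.ordGE (v : Place K F) (n : ℤ) : Submodule K F where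
  carrier := {f | v.adicValuation f ≤ WithZero.exp (-n)}
  zero_mem' := by simp
  add_mem' := by
    intro f g hf hg
    have hf' : v.adicValuation f ≤ WithZero.exp (-n) := hf
    have hg' : v.adicValuation g ≤ WithZero.exp (-n) := hg
    exact (Valuation.map_add _ _ _).trans (max_le hf' hg')
  smul_mem' := by
    intro c f hf
    show v.adicValuation (c • f) ≤ WithZero.exp (-n)
    rw [Algebra.smul_def, map_mul]
    exact (mul_le_of_le_one_left' (v.adicValuation_algebraMap_le_one c)).trans hf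

theorem ExtLocalBasis.mem_ordGE {v : Place K F} {n : ℤ} {f : F} :
    f ∈ ExtLocalBasis.ordGE v n ↔ f = 0 ∨ n ≤ v.ord f := by
  show v.adicValuation f ≤ WithZero.exp (-n) ↔ _
  rw [v.adicValuation_le_exp_iff, neg_neg]

/-- normalising a nonzero finite family: after multiplication by a power of a uniformiser all members
are integral and one of them is a unit. -/
theorem ExtLocalBasis.exists_scale {I : Type*} [Finite I] (v : Place K F) (c : I → F)
    (hc : ∃ p, c p ≠ 0) :
    ∃ (s : F) (m : ℤ), s ≠ 0 ∧ v.ord s = -m ∧ (∀ p, c p ≠ 0 → m ≤ v.ord (c p)) ∧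
      (∀ p, 0 ≤ v.ord (s * c p)) ∧ ∃ p₀, s * c p₀ ≠ 0 ∧ v.ord (s * c p₀) = 0 ∧
        v.ord (c p₀) = m := by
  classical
  have := Fintype.ofFinite I
  obtain ⟨π, hπ⟩ := exists_ord_eq_one v
  have hπ0 : π ≠ 0 := ne_zero_of_ord_ne_zero v (by rw [hπ]; exact one_ne_zero)
  obtain ⟨p, hp⟩ := hc
  obtain ⟨p₀, hp₀, hmin⟩ := Finset.exists_min_image (Finset.univ.filter fun p => c p ≠ 0)
    (fun p => v.ord (c p)) ⟨p, by simp [hp]⟩
  have hp₀' : c p₀ ≠ 0 := by simpa using hp₀
  have hs0 : π ^ (-(v.ord (c p₀))) ≠ 0 := zpow_ne_zero _ hπ0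
  have hs : v.ord (π ^ (-(v.ord (c p₀)))) = -(v.ord (c p₀)) := by
    rw [v.ord_zpow, hπ, mul_one]
  refine ⟨π ^ (-(v.ord (c p₀))), v.ord (c p₀), hs0, hs, ?_, ?_, p₀, mul_ne_zero hs0 hp₀', ?_, rfl⟩
  · intro q hq
    exact hmin q (by simp [hq])
  · intro q
    rcases eq_or_ne (c q) 0 with hq | hq
    · rw [hq]; simp
    · rw [v.ord_mul hs0 hq, hs]
      have := hmin q (by simp [hq])
      omega
  · rw [v.ord_mul hs0 hp₀', hs]
    omega

end approx

variable {K F F' : Type*} [Field K] [Field F] [Field F']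
  [Algebra K F] [Algebra K F'] [Algebra F F'] [IsScalarTower K F F']

theorem ExtLocalBasis.ord_smul [Algebra.IsIntegral F F'] (w : Place K F') {c : F} (hc : c ≠ 0)
    {x : F'} (hx : x ≠ 0) :
    w.ord (c • x) = w.ramificationIndex F * (w.restrict F).ord c + w.ord x := by
  rw [Algebra.smul_def, w.ord_mul (by simpa using hc) hx, w.ord_restrict]

/-- the key estimate. -/
theorem ExtLocalBasis.key [Algebra.IsIntegral F F'] (v : Place K F) (W : Finset (Place K F'))
    (hW : ∀ w ∈ W, w.restrict F = v)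
    (z : (Σ w : W, Fin ((w : Place K F').ramificationIndex F)) → F')
    (hz0 : ∀ p, z p ≠ 0) (hz1 : ∀ p, (p.1 : Place K F').ord (z p) = (p.2 : ℕ))
    (hz2 : ∀ p, ∀ w ∈ W, w ≠ p.1 → w.ord (z p) = w.ramificationIndex F)
    (c : (Σ w : W, Fin ((w : Place K F').ramificationIndex F)) → F)
    (hc : ∀ p, 0 ≤ v.ord (c p)) (hu : ∃ p₀, c p₀ ≠ 0 ∧ v.ord (c p₀) = 0) :
    ∃ w ∈ W, ∑ p, c p • z p ≠ 0 ∧ w.ord (∑ p, c p • z p) < w.ramificationIndex F := by
  classical
  obtain ⟨⟨w, a₀⟩, hp0, hp1⟩ := hu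
  -- the minimal `a` with unit coefficient
  obtain ⟨a, ha, hmin⟩ := Finset.exists_min_image
    (Finset.univ.filter fun a : Fin ((w : Place K F').ramificationIndex F) =>
      c ⟨w, a⟩ ≠ 0 ∧ v.ord (c ⟨w, a⟩) = 0) (fun a => (a : ℕ)) ⟨a₀, by simp [hp0, hp1]⟩
  have ha' : c ⟨w, a⟩ ≠ 0 ∧ v.ord (c ⟨w, a⟩) = 0 := by simpa using ha
  have hwv : (w : Place K F').restrict F = v := hW w w.2
  refine ⟨w, w.2, ?_⟩
  let p₁ : Σ w : W, Fin ((w : Place K F').ramificationIndex F) := ⟨w, a⟩
  have hT0 : c ⟨w, a⟩ • z ⟨w, a⟩ ≠ 0 := smul_ne_zero ha'.1 (hz0 _)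
  have hT0ord : (w : Place K F').ord (c ⟨w, a⟩ • z ⟨w, a⟩) = (a : ℕ) := by
    rw [ExtLocalBasis.ord_smul _ ha'.1 (hz0 _), hwv, ha'.2, mul_zero, zero_add]
    exact hz1 ⟨w, a⟩
  have hrest : ∑ p ∈ Finset.univ.erase p₁, c p • z p ∈
      ExtLocalBasis.ordGE (w : Place K F') ((a : ℕ) + 1) := by
    apply Submodule.sum_mem
    rintro ⟨w', a'⟩ hp
    have hne : (⟨w', a'⟩ : Σ w : W, Fin ((w : Place K F').ramificationIndex F)) ≠ ⟨w, a⟩ :=
      Finset.ne_of_mem_erase hp
    rw [ExtLocalBasis.mem_ordGE]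
    rcases eq_or_ne (c ⟨w', a'⟩) 0 with h0 | h0
    · left; rw [h0, zero_smul]
    right
    rw [ExtLocalBasis.ord_smul _ h0 (hz0 _), hwv]
    have hcn := hc ⟨w', a'⟩
    have he : (0 : ℤ) < ((w : Place K F').ramificationIndex F : ℤ) := by
      have := (w : Place K F').ramificationIndex_pos (F := F)
      omega
    have ha_lt : ((a : ℕ) : ℤ) < ((w : Place K F').ramificationIndex F : ℤ) := by
      have := a.2
      omega
    by_cases hw' : w' = w
    · subst hw'
      have hz := hz1 ⟨w', a'⟩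
      simp only at hz
      rw [hz]
      rcases eq_or_lt_of_le hcn with h1 | h1
      · -- unit coefficient
        have h2 := hmin a' (by simp [h0, h1.symm])
        have h3 : a' ≠ a := by
          rintro rfl
          exact hne rfl
        have h4 : (a' : ℕ) ≠ (a : ℕ) := fun h => h3 (Fin.ext h)
        rw [← h1, mul_zero, zero_add]
        omega
      · have : ((w' : Place K F').ramificationIndex F : ℤ) * 1 ≤
            ((w' : Place K F').ramificationIndex F : ℤ) * v.ord (c ⟨w', a'⟩) :=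
          mul_le_mul_of_nonneg_left (by omega) he.le
        omega
    · have hz := hz2 ⟨w', a'⟩ w w.2 (fun h => hw' (Subtype.ext h).symm)
      rw [hz]
      have : 0 ≤ ((w : Place K F').ramificationIndex F : ℤ) * v.ord (c ⟨w', a'⟩) :=
        mul_nonneg he.le hcn
      omega
  rw [← Finset.add_sum_erase Finset.univ (fun p => c p • z p) (Finset.mem_univ p₁)]
  show c ⟨w, a⟩ • z ⟨w, a⟩ + _ ≠ 0 ∧ (w : Place K F').ord (c ⟨w, a⟩ • z ⟨w, a⟩ + _) < _
  have ha_lt : ((a : ℕ) : ℤ) < ((w : Place K F').ramificationIndex F : ℤ) := by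
    have := a.2
    omega
  rcases ExtLocalBasis.mem_ordGE.mp hrest with h0 | h1
  · rw [h0, add_zero]
    exact ⟨hT0, by rw [hT0ord]; exact ha_lt⟩
  · rcases eq_or_ne (∑ p ∈ Finset.univ.erase p₁, c p • z p) 0 with h0 | h0
    · rw [h0, add_zero]
      exact ⟨hT0, by rw [hT0ord]; exact ha_lt⟩
    have hord := ord_add_eq_of_lt (w : Place K F') hT0 h0 (by rw [hT0ord]; omega)
    refine ⟨?_, by rw [hord, hT0ord]; exact ha_lt⟩
    intro hsum
    -- `T0 = - rest` contradicts the orders
    have : c ⟨w, a⟩ • z ⟨w, a⟩ =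
        - ∑ p ∈ Finset.univ.erase p₁, c p • z p :=
      eq_neg_of_add_eq_zero_left hsum
    have h2 := congrArg (w : Place K F').ord this
    rw [ord_neg, hT0ord] at h2
    omega

variable [IsAlgClosed K] [IsFF1 K F] [IsFF1 K F'] [Module.Finite F F']

/-- (FF-E4) local integral basis at `v`. -/
theorem exists_localBasis (v : Place K F) :
    ∃ b : Module.Basis (Fin (Module.finrank F F')) F F',
      ∀ y : F', (∀ w : Place K F', w.restrict F = v → 0 ≤ w.ord y) ↔
        ∀ i, 0 ≤ v.ord (b.repr y i) := by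
  classical
  set W : Finset (Place K F') := v.fiber F' with hWdef
  have hW : ∀ w ∈ W, w.restrict F = v := fun w hw => Place.mem_fiber.mp hw
  have hW' : ∀ w : Place K F', w.restrict F = v → w ∈ W := fun w hw => Place.mem_fiber.mpr hw
  let I := Σ w : W, Fin ((w : Place K F').ramificationIndex F)
  have hcard : Fintype.card I = Module.finrank F F' := by
    have h1 : Fintype.card I = ∑ w : W, (w : Place K F').ramificationIndex F := by
      rw [Fintype.card_sigma]
      simp
    have h2 : ∑ w : W, (w : Place K F').ramificationIndex F =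
        ∑ w ∈ W, w.ramificationIndex F :=
      Finset.sum_coe_sort W (fun w => w.ramificationIndex F)
    have h3 := sum_ramificationIndex (F' := F') v
    rw [← Nat.cast_sum] at h3
    rw [h1, h2]
    exact_mod_cast h3
  -- the elements `z`
  have hex : ∀ p : I, ∃ z : F', z ≠ 0 ∧ ∀ w ∈ W, w.ord z =
      if w = p.1 then ((p.2 : ℕ) : ℤ) else (w.ramificationIndex F : ℤ) := fun p =>
    exists_ord_eq W _
  choose z hz0 hz using hex
  have hz1 : ∀ p : I, (p.1 : Place K F').ord (z p) = (p.2 : ℕ) := by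
    intro p
    rw [hz p p.1 p.1.2, if_pos rfl]
  have hz2 : ∀ p : I, ∀ w ∈ W, w ≠ p.1 → w.ord (z p) = w.ramificationIndex F := by
    intro p w hw hne
    rw [hz p w hw, if_neg hne]
  have hz3 : ∀ p : I, ∀ w ∈ W, 0 ≤ w.ord (z p) := by
    intro p w hw
    rw [hz p w hw]
    split_ifs <;> omega
  have key := ExtLocalBasis.key v W hW z hz0 hz1 hz2
  -- linear independence
  have hli : LinearIndependent F z := by
    rw [Fintype.linearIndependent_iff]
    intro g hg
    by_contra hcon
    push Not at hcon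
    obtain ⟨s, m, hs0, -, -, h1, p₀, h2, h3, -⟩ := ExtLocalBasis.exists_scale v g hcon
    obtain ⟨w, -, h4, -⟩ := key (fun p => s * g p) h1 ⟨p₀, h2, h3⟩
    apply h4
    have : ∑ p, (s * g p) • z p = s • ∑ p, g p • z p := by
      rw [Finset.smul_sum]
      exact Finset.sum_congr rfl fun p _ => by rw [mul_smul]
    rw [this, hg, smul_zero]
  have : Nonempty I := by
    rw [← Fintype.card_pos_iff, hcard]
    exact Module.finrank_pos
  let b₀ : Module.Basis I F F' := basisOfLinearIndependentOfCardEqFinrank hli hcard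
  have hb₀ : ∀ p, b₀ p = z p := fun p => by
    simp [b₀]
  refine ⟨b₀.reindex (Fintype.equivFinOfCardEq hcard), fun y => ?_⟩
  have hy : ∑ p, b₀.repr y p • z p = y := by
    conv_rhs => rw [← b₀.sum_repr y]
    exact Finset.sum_congr rfl fun p _ => by rw [hb₀]
  have hre : (∀ i, 0 ≤ v.ord ((b₀.reindex (Fintype.equivFinOfCardEq hcard)).repr y i)) ↔
      ∀ p, 0 ≤ v.ord (b₀.repr y p) := by
    constructor
    · intro h p
      have := h (Fintype.equivFinOfCardEq hcard p)
      rwa [Module.Basis.repr_reindex_apply, Equiv.symm_apply_apply] at this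
    · intro h i
      rw [Module.Basis.repr_reindex_apply]
      exact h _
  rw [hre]
  constructor
  · intro h
    by_contra hcon
    push Not at hcon
    obtain ⟨q, hq⟩ := hcon
    have hq0 : b₀.repr y q ≠ 0 := ne_zero_of_ord_ne_zero v hq.ne
    obtain ⟨s, m, hs0, hsm, hm, h1, p₀, h2, h3, h5⟩ :=
      ExtLocalBasis.exists_scale v (fun p => b₀.repr y p) ⟨q, hq0⟩
    obtain ⟨w, hw, h4, h6⟩ := key (fun p => s * b₀.repr y p) h1 ⟨p₀, h2, h3⟩
    have hsum : ∑ p, (s * b₀.repr y p) • z p = s • y := by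
      conv_rhs => rw [← hy]
      rw [Finset.smul_sum]
      exact Finset.sum_congr rfl fun p _ => by rw [mul_smul]
    rw [hsum] at h4 h6
    have hy0 : y ≠ 0 := by
      rintro rfl
      exact h4 (smul_zero _)
    rw [ExtLocalBasis.ord_smul w hs0 hy0, hW w hw, hsm] at h6
    have hmq := hm q hq0
    have hyw := h w (hW w hw)
    have he : (0 : ℤ) < (w.ramificationIndex F : ℤ) := by
      have := w.ramificationIndex_pos (F := F)
      omega
    have : (w.ramificationIndex F : ℤ) * 1 ≤ (w.ramificationIndex F : ℤ) * (-m) :=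
      mul_le_mul_of_nonneg_left (by omega) he.le
    omega
  · intro h w hw
    have hmem : ∑ p, b₀.repr y p • z p ∈ ExtLocalBasis.ordGE w 0 := by
      apply Submodule.sum_mem
      intro p _
      rw [ExtLocalBasis.mem_ordGE]
      rcases eq_or_ne (b₀.repr y p) 0 with h0 | h0
      · left; rw [h0, zero_smul]
      right
      rw [ExtLocalBasis.ord_smul w h0 (hz0 p), hw]
      have he : (0 : ℤ) ≤ (w.ramificationIndex F : ℤ) := by omega
      have := mul_nonneg he (h p)
      have := hz3 p w (hW' w hw)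
      omega
    rw [hy] at hmem
    rcases ExtLocalBasis.mem_ordGE.mp hmem with h0 | h0
    · rw [h0]; simp
    · exact h0

end Fermat.Agent.GAL.FF
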