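import Fermat.Agent.GAL.FF.ExtBasic

/-!
# GAL / FF : the fundamental identity `∑ e = [F' : F]`, push-pull  (package FF-E2)

Any characteristic, `K` algebraically closed.
-/

set_option autoImplicit false

namespace Fermat.Agent.GAL.FF

open AlgebraicCurve IntermediateField Fermat.Agent.S24.FF

variable {K F F' : Type*} [Field K] [Field F] [Field F']
  [Algebra K F] [Algebra K F'] [Algebra F F'] [IsScalarTower K F F']
  [IsAlgClosed K] [IsFF1 K F] [IsFF1 K F'] [Module.Finite F F']

/-- the pole divisor of `t ∈ F` in `F'` is the pull back of its pole divisor in `F`. -/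
theorem poleDiv_algebraMap (t : F) :
    poleDiv K (algebraMap F F' t) = Divisor.pullback F' (poleDiv K t) := by
  ext w
  rw [Divisor.pullback_apply, poleDiv_apply, poleDiv_apply, w.ord_restrict t]
  have he : (0 : ℤ) ≤ (w.ramificationIndex F : ℤ) := Int.natCast_nonneg _
  rw [mul_max_of_nonneg _ _ he, mul_zero, mul_neg]

theorem divOf_algebraMap (t : F) :
    divOf K (algebraMap F F' t) = Divisor.pullback F' (divOf K t) := by
  ext w
  rw [Divisor.pullback_apply, divOf_apply, divOf_apply, w.ord_restrict t]

theorem sum_ramificationIndex (v : Place K F) :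
    ∑ w ∈ v.fiber F', (w.ramificationIndex F : ℤ) = (Module.finrank F F' : ℤ) := by
  classical
  obtain ⟨f, hfv, hf⟩ := exists_unique_pole v
  have htr : Transcendental K f := transcendental_of_ord_ne_zero v hfv.ne
  set m : ℤ := - v.ord f with hm
  have hmpos : 0 < m := by omega
  have hpole : poleDiv K f = Finsupp.single v m := by
    ext w
    rw [poleDiv_apply]
    by_cases hw : w = v
    · subst hw
      rw [Finsupp.single_eq_same]
      exact max_eq_right hmpos.le
    · rw [Finsupp.single_eq_of_ne hw]
      have := hf w hw
      exact max_eq_left (by omega)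
  have h1 : m = (Module.finrank K⟮f⟯ F : ℤ) := by
    rw [← degree_poleDiv htr, hpole, degree_single_one]
  have h2 : Divisor.degree (poleDiv K (algebraMap F F' f)) =
      (Module.finrank K⟮f⟯ F : ℤ) * (Module.finrank F F' : ℤ) := by
    rw [degree_poleDiv (transcendental_algebraMap htr), finrank_adjoin_algebraMap]
    push_cast
    ring
  rw [poleDiv_algebraMap, hpole, Divisor.pullback_single, map_sum, ← h1] at h2
  simp_rw [degree_single_one] at h2
  rw [← Finset.mul_sum] at h2
  exact mul_left_cancel₀ hmpos.ne' h2

instance instSumRamificationInertia : SumRamificationInertia K F F' := by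
  refine ⟨fun v => ?_⟩
  rw [← sum_ramificationIndex v]
  refine Finset.sum_congr rfl fun w _ => ?_
  rw [inertiaDeg_eq_one]
  simp

theorem pushforward_pullback (D : Divisor K F) :
    Divisor.pushforward F (Divisor.pullback F' D) = (Module.finrank F F') • D := by
  induction D using Finsupp.induction_linear with
  | zero => simp
  | add D E hD hE => rw [map_add, map_add, hD, hE, smul_add]
  | single v n =>
    rw [Divisor.pullback_single, map_sum]
    have : ∀ w ∈ v.fiber F', Divisor.pushforward F
        (Finsupp.single w (n * (w.ramificationIndex F : ℤ))) =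
        Finsupp.single v (n * (w.ramificationIndex F : ℤ)) := by
      intro w hw
      rw [Divisor.pushforward_single, inertiaDeg_eq_one, Place.mem_fiber.mp hw]
      simp
    rw [Finset.sum_congr rfl this, ← Finsupp.single_finsetSum, ← Finset.mul_sum,
      sum_ramificationIndex, Finsupp.smul_single]
    congr 1
    simp [mul_comm]

theorem card_fiber_le (v : Place K F) : (v.fiber F').card ≤ Module.finrank F F' := by
  have h := sum_ramificationIndex (F' := F') v
  have h1 : ((v.fiber F').card : ℤ) ≤ ∑ w ∈ v.fiber F', (w.ramificationIndex F : ℤ) := by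
    rw [Finset.card_eq_sum_ones]
    push_cast
    refine Finset.sum_le_sum fun w _ => ?_
    have := w.ramificationIndex_pos (F := F)
    omega
  rw [h] at h1
  exact_mod_cast h1

end Fermat.Agent.GAL.FF
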