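import Fermat.Agent.GAL.FF.ZeroDeg

/-!
# GAL / FF : Riemann-Roch spaces, elementary part  (package FF-R3)

Any characteristic, `K` algebraically closed.  Reference: Stichtenoth 1.4.6 - 1.4.9.
-/

set_option autoImplicit false

namespace Fermat.Agent.GAL.FF

open AlgebraicCurve IntermediateField Fermat.Agent.S24.FF

variable {K F : Type*} [Field K] [Field F] [Algebra K F]

/-- `ℓ(D)` -/
noncomputable abbrev ell (D : Divisor K F) : ℕ := Module.finrank K (riemannRochSpace D)

/-- `h¹(D) = i(D)` -/
noncomputable abbrev h1 (D : Divisor K F) : ℕ := Module.finrank K (H1 D)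

theorem L_mono {D D' : Divisor K F} (h : D ≤ D') : riemannRochSpace D ≤ riemannRochSpace D' := by
  intro f hf
  rw [mem_riemannRochSpace_iff] at hf ⊢
  intro v
  rcases hf v with h0 | h1
  · exact Or.inl h0
  · right
    have := Finsupp.le_def.mp h v
    omega

theorem L_zero [IsAlgClosed K] [IsFF1 K F] :
    riemannRochSpace (0 : Divisor K F) = LinearMap.range (Algebra.linearMap K F) := by
  ext f
  rw [mem_riemannRochSpace_iff, LinearMap.mem_range]
  constructor
  · intro h
    have h' : ∀ v : Place K F, 0 ≤ v.ord f := by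
      intro v
      rcases h v with rfl | h1
      · simp
      · simpa using h1
    obtain ⟨c, hc⟩ := mem_range_of_forall_ord_nonneg h'
    exact ⟨c, hc⟩
  · rintro ⟨c, rfl⟩ v
    right
    rw [Algebra.linearMap_apply, ord_algebraMap]
    simp

theorem ell_zero [IsAlgClosed K] [IsFF1 K F] : ell (0 : Divisor K F) = 1 := by
  unfold ell
  rw [L_zero, LinearMap.finrank_range_of_inj, Module.finrank_self]
  exact (algebraMap K F).injective

theorem L_eq_bot_of_lt_zero [IsAlgClosed K] [IsFF1 K F] {D : Divisor K F} (h : D < 0) :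
    riemannRochSpace D = ⊥ := by
  rw [eq_bot_iff]
  intro f hf
  rw [Submodule.mem_bot]
  by_contra hf0
  have h1 : f ∈ riemannRochSpace (0 : Divisor K F) := L_mono h.le hf
  rw [L_zero, LinearMap.mem_range] at h1
  obtain ⟨c, rfl⟩ := h1
  have hne : ∃ v, D v < 0 := by
    by_contra hcon
    push Not at hcon
    exact absurd (Finsupp.le_def.mpr fun v => by simpa using hcon v) (not_le_of_gt h)
  obtain ⟨v, hv⟩ := hne
  rw [mem_riemannRochSpace_iff] at hf
  rcases hf v with h0 | h2
  · exact hf0 h0
  · rw [Algebra.linearMap_apply, ord_algebraMap] at h2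
    omega

/-- auxiliary: `L(D+v) ≤ L(D) ⊔ K f₀` for any `f₀ ∈ L(D+v) \ L(D)`. -/
theorem lspace_le_sup_span [IsAlgClosed K] [IsFF1 K F] (D : Divisor K F) (v : Place K F) {f₀ : F}
    (h₀ : f₀ ∈ riemannRochSpace (D + Finsupp.single v 1)) (h₀' : f₀ ∉ riemannRochSpace D) :
    riemannRochSpace (D + Finsupp.single v 1) ≤ riemannRochSpace D ⊔ Submodule.span K {f₀} := by
  classical
  have hf₀ : f₀ ≠ 0 := by
    rintro rfl
    exact h₀' (Submodule.zero_mem _)
  have hw : ∀ w : Place K F, w ≠ v → (D + Finsupp.single v 1 : Divisor K F) w = D w := by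
    intro w hwv
    rw [Finsupp.add_apply, Finsupp.single_apply, if_neg (Ne.symm hwv), add_zero]
  have hv : (D + Finsupp.single v 1 : Divisor K F) v = D v + 1 := by
    rw [Finsupp.add_apply, Finsupp.single_apply, if_pos rfl]
  have h₀m := mem_riemannRochSpace_iff.mp h₀
  have hord₀ : v.ord f₀ = -(D v + 1) := by
    have h1 : -(D v + 1) ≤ v.ord f₀ := by
      rcases h₀m v with h | h
      · exact absurd h hf₀
      · rwa [hv] at h
    by_contra hne
    apply h₀'
    rw [mem_riemannRochSpace_iff]
    intro w
    right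
    by_cases hwv : w = v
    · subst hwv
      omega
    · rcases h₀m w with h | h
      · exact absurd h hf₀
      · rwa [hw w hwv] at h
  intro f hf
  have hfm := mem_riemannRochSpace_iff.mp hf
  rcases eq_or_ne f 0 with rfl | hf0
  · exact Submodule.zero_mem _
  have hg : 0 ≤ v.ord (f / f₀) := by
    rw [div_eq_mul_inv, v.ord_mul hf0 (inv_ne_zero hf₀), v.ord_inv, hord₀]
    rcases hfm v with h | h
    · exact absurd h hf0
    · rw [hv] at h
      omega
  obtain ⟨c, hc⟩ := exists_ord_sub_pos v hg
  have hdecomp : f = (f - c • f₀) + c • f₀ := by ring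
  rw [hdecomp]
  refine Submodule.add_mem_sup ?_ (Submodule.smul_mem _ _ (Submodule.mem_span_singleton_self _))
  have hmem : f - c • f₀ ∈ riemannRochSpace (D + Finsupp.single v 1) :=
    Submodule.sub_mem _ hf (Submodule.smul_mem _ _ h₀)
  have hmm := mem_riemannRochSpace_iff.mp hmem
  have heq : f - c • f₀ = (f / f₀ - algebraMap K F c) * f₀ := by
    rw [Algebra.smul_def]
    field_simp
  rw [mem_riemannRochSpace_iff]
  intro w
  by_cases hwv : w = v
  · subst hwv
    rcases hc with hc | hc
    · left
      rw [heq, hc, sub_self, zero_mul]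
    · right
      have hne : f / f₀ - algebraMap K F c ≠ 0 := ne_zero_of_ord_ne_zero w hc.ne'
      rw [heq, w.ord_mul hne hf₀, hord₀]
      omega
  · rcases hmm w with h | h
    · exact Or.inl h
    · right
      rwa [hw w hwv] at h

/-- the basic step: `L(D+v)/L(D)` embeds in the residue field at `v` (`f ↦ (f π^{D v + 1})(v)`). -/
theorem finite_L_add_single [IsAlgClosed K] [IsFF1 K F] (D : Divisor K F) (v : Place K F)
    (h : Module.Finite K (riemannRochSpace D)) :
    Module.Finite K (riemannRochSpace (D + Finsupp.single v 1)) ∧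
      ell (D + Finsupp.single v 1) ≤ ell D + 1 := by
  have hle : riemannRochSpace D ≤ riemannRochSpace (D + Finsupp.single v 1) := by
    apply L_mono
    have : (0 : Divisor K F) ≤ Finsupp.single v 1 := by
      rw [Finsupp.le_def]
      intro w
      classical
      rw [Finsupp.single_apply]
      split_ifs <;> simp
    exact le_add_of_nonneg_right this
  by_cases hex : ∃ f₀ ∈ riemannRochSpace (D + Finsupp.single v 1), f₀ ∉ riemannRochSpace D
  · obtain ⟨f₀, h₀, h₀'⟩ := hex
    have hsup := lspace_le_sup_span D v h₀ h₀'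
    have hfin : Module.Finite K ↥(riemannRochSpace D ⊔ Submodule.span K {f₀}) := inferInstance
    refine ⟨Submodule.finiteDimensional_of_le hsup, ?_⟩
    calc ell (D + Finsupp.single v 1)
        ≤ Module.finrank K ↥(riemannRochSpace D ⊔ Submodule.span K {f₀}) :=
          Submodule.finrank_mono hsup
      _ ≤ Module.finrank K (riemannRochSpace D) + Module.finrank K (Submodule.span K {f₀}) :=
          Submodule.finrank_add_le_finrank_add_finrank _ _
      _ ≤ ell D + 1 := by
          have := finrank_span_le_card (R := K) ({f₀} : Set F)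
          simp only [Set.toFinset_singleton, Finset.card_singleton] at this
          unfold ell
          omega
  · push Not at hex
    have heq : riemannRochSpace (D + Finsupp.single v 1) = riemannRochSpace D :=
      le_antisymm hex hle
    unfold ell
    rw [heq]
    exact ⟨h, Nat.le_succ _⟩

instance finite_L [IsAlgClosed K] [IsFF1 K F] (D : Divisor K F) :
    Module.Finite K (riemannRochSpace D) := by
  have h0 : Module.Finite K (riemannRochSpace (0 : Divisor K F)) := by
    rw [L_zero]
    infer_instance
  have h1 : Module.Finite K (riemannRochSpace (D ⊔ 0)) :=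
    le_induction (P := fun E => Module.Finite K (riemannRochSpace E)) h0
      (fun E v _ hE => (finite_L_add_single E v hE).1) (le_sup_right)
  exact Submodule.finiteDimensional_of_le (L_mono (le_sup_left : D ≤ D ⊔ 0))

theorem ell_add_single_le [IsAlgClosed K] [IsFF1 K F] (D : Divisor K F) (v : Place K F) :
    ell (D + Finsupp.single v 1) ≤ ell D + 1 :=
  (finite_L_add_single D v inferInstance).2

theorem ell_mono [IsAlgClosed K] [IsFF1 K F] {D D' : Divisor K F} (h : D ≤ D') :
    ell D ≤ ell D' :=
  Submodule.finrank_mono (L_mono h)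

/-- `deg - ℓ` is monotone. -/
theorem ell_sub_le [IsAlgClosed K] [IsFF1 K F] {D D' : Divisor K F} (h : D ≤ D') :
    (ell D' : ℤ) - ell D ≤ Divisor.degree D' - Divisor.degree D := by
  refine le_induction
    (P := fun E => (ell E : ℤ) - ell D ≤ Divisor.degree E - Divisor.degree D) (by simp) ?_ h
  intro E v _ hE
  have h1 := ell_add_single_le E v
  rw [map_add, degree_single_one]
  have h2 : (ell (E + Finsupp.single v 1) : ℤ) ≤ ell E + 1 := by exact_mod_cast h1
  linarith

/-- `ℓ(D) ≤ deg D + 1` for `D ≥ 0`. -/
theorem ell_le_degree_add_one [IsAlgClosed K] [IsFF1 K F] {D : Divisor K F} (h : 0 ≤ D) :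
    (ell D : ℤ) ≤ Divisor.degree D + 1 := by
  have h1 := ell_sub_le h
  rw [ell_zero, map_zero] at h1
  push_cast at h1
  linarith

theorem mem_L_iff_divOf [IsFF1 K F] {D : Divisor K F} {f : F} (hf : f ≠ 0) :
    f ∈ riemannRochSpace D ↔ 0 ≤ D + divOf K f := by
  rw [mem_riemannRochSpace_iff, Finsupp.le_def]
  refine forall_congr' fun v => ?_
  rw [or_iff_right hf, Finsupp.add_apply, divOf_apply, Finsupp.zero_apply]
  constructor <;> intro h <;> omega

/-- multiplication by `f` : `L(D + div f) ≃ L(D)`. -/
theorem ell_add_divOf [IsFF1 K F] (D : Divisor K F) {f : F} (hf : f ≠ 0) :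
    ell (D + divOf K f) = ell D := by
  let e : F ≃ₗ[K] F := LinearEquiv.ofLinearMap (LinearMap.mulLeft K f) (LinearMap.mulLeft K f⁻¹)
    (by ext x; simp [hf]) (by ext x; simp [hf])
  have hmap : (riemannRochSpace (D + divOf K f)).map (e : F →ₗ[K] F) = riemannRochSpace D := by
    ext g
    rw [Submodule.mem_map]
    constructor
    · rintro ⟨x, hx, rfl⟩
      show f * x ∈ _
      rcases eq_or_ne x 0 with rfl | hx0
      · simp
      rw [mem_L_iff_divOf hx0] at hx
      rw [mem_L_iff_divOf (mul_ne_zero hf hx0), divOf_mul hf hx0, ← add_assoc]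
      exact hx
    · intro hg
      refine ⟨f⁻¹ * g, ?_, ?_⟩
      · rcases eq_or_ne g 0 with rfl | hg0
        · simp
        rw [mem_L_iff_divOf hg0] at hg
        rw [mem_L_iff_divOf (mul_ne_zero (inv_ne_zero hf) hg0),
          divOf_mul (inv_ne_zero hf) hg0, divOf_inv]
        have : D + divOf K f + (-divOf K f + divOf K g) = D + divOf K g := by abel
        rw [this]
        exact hg
      · show f * (f⁻¹ * g) = g
        rw [← mul_assoc, mul_inv_cancel₀ hf, one_mul]
  unfold ell
  rw [← hmap]
  exact (LinearEquiv.finrank_map_eq e _).symm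

end Fermat.Agent.GAL.FF
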