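import Fermat.Agent.GAL.FF.DegPrincipal

/-!
# GAL / FF : Riemann's inequality (existence of the genus)  (package FF-R5)

Any characteristic, `K` algebraically closed.  Reference: Stichtenoth 1.4.14 - 1.4.17.
-/

set_option autoImplicit false

namespace Fermat.Agent.GAL.FF

open AlgebraicCurve IntermediateField Fermat.Agent.S24.FF

variable {K F : Type*} [Field K] [Field F] [Algebra K F]

theorem riemannIneq_exists_ne_zero {D : Divisor K F} (h : 0 < ell D) :
    ∃ f : F, f ≠ 0 ∧ f ∈ riemannRochSpace D := by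
  have hne : riemannRochSpace D ≠ ⊥ := by
    intro hbot
    rw [ell, hbot, finrank_bot] at h
    exact lt_irrefl _ h
  obtain ⟨f, hf, hf0⟩ := Submodule.exists_mem_ne_zero_of_ne_bot hne
  exact ⟨f, hf0, hf⟩

theorem riemannIneq_bound_smul_poleDiv [IsAlgClosed K] [IsFF1 K F] {x : F}
    (hx : Transcendental K x) :
    ∃ γ : ℤ, ∀ l : ℕ, Divisor.degree (l • poleDiv K x) - ell (l • poleDiv K x) ≤ γ := by
  obtain ⟨C, hC0, hC⟩ := exists_ell_ge (K := K) hx
  refine ⟨Divisor.degree C - Module.finrank K⟮x⟯ F, fun l => ?_⟩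
  have h1 : l • poleDiv K x ≤ l • poleDiv K x + C := le_add_of_nonneg_right hC0
  have h2 := ell_sub_le h1
  have h3 : ((Module.finrank K⟮x⟯ F * (l + 1) : ℕ) : ℤ) ≤ ell (l • poleDiv K x + C) := by
    exact_mod_cast hC l
  rw [map_add, map_nsmul, degree_poleDiv hx] at h2
  rw [map_nsmul, degree_poleDiv hx]
  push_cast at h3
  simp only [nsmul_eq_mul] at h2 ⊢
  linarith

theorem exists_riemann_bound [IsAlgClosed K] [IsFF1 K F] :
    ∃ γ : ℤ, ∀ D : Divisor K F, Divisor.degree D - ell D ≤ γ := by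
  obtain ⟨x, hx, hfin⟩ := IsFF1.exists_transcendental (K := K) (F := F)
  obtain ⟨γ, hγ⟩ := riemannIneq_bound_smul_poleDiv (K := K) hx
  refine ⟨γ, fun D => ?_⟩
  have hn : 0 < Module.finrank K⟮x⟯ F := Module.finrank_pos
  set A1 : Divisor K F := D ⊔ 0 with hA1
  have hDA : D ≤ A1 := le_sup_left
  set l : ℕ := (γ + Divisor.degree A1 + 1).toNat with hl
  have hl1 : γ + Divisor.degree A1 + 1 ≤ l := Int.self_le_toNat _
  have h1 : l • poleDiv K x - A1 ≤ l • poleDiv K x := sub_le_self _ le_sup_right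
  have h2 := ell_sub_le h1
  have h3 := hγ l
  have hdeg : Divisor.degree (l • poleDiv K x) = (l : ℤ) * Module.finrank K⟮x⟯ F := by
    rw [map_nsmul, degree_poleDiv hx, nsmul_eq_mul]
  have hln : (l : ℤ) ≤ (l : ℤ) * Module.finrank K⟮x⟯ F := by
    have : (1 : ℤ) ≤ Module.finrank K⟮x⟯ F := by exact_mod_cast hn
    nlinarith [Int.natCast_nonneg l]
  rw [map_sub] at h2
  have h4 : 0 < ell (l • poleDiv K x - A1) := by
    have : (0 : ℤ) < ell (l • poleDiv K x - A1) := by linarith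
    exact_mod_cast this
  obtain ⟨z, hz0, hz⟩ := riemannIneq_exists_ne_zero h4
  rw [mem_L_iff_divOf hz0] at hz
  have h5 : A1 + divOf K z⁻¹ ≤ l • poleDiv K x := by
    rw [divOf_inv]
    have : A1 + -divOf K z = l • poleDiv K x - (l • poleDiv K x - A1 + divOf K z) := by abel
    rw [this]
    exact sub_le_self _ hz
  have h6 := ell_sub_le h5
  have h7 := ell_sub_le hDA
  rw [map_add, degree_divOf, add_zero, ell_add_divOf _ (inv_ne_zero hz0)] at h6
  linarith

variable (K F) in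
/-- the "Riemann genus" `max (deg D - ℓ(D) + 1)`; shown to be `genusFF` in `Riemann.lean`. -/
theorem exists_genusR [IsAlgClosed K] [IsFF1 K F] :
    ∃ g : ℕ, (∀ D : Divisor K F, Divisor.degree D + 1 - g ≤ ell D) ∧
      ∃ D₀ : Divisor K F, (ell D₀ : ℤ) = Divisor.degree D₀ + 1 - g := by
  obtain ⟨γ, hγ⟩ := exists_riemann_bound (K := K) (F := F)
  obtain ⟨ub, ⟨D₀, hD₀⟩, hub⟩ := Int.exists_greatest_of_bdd
    (P := fun z : ℤ => ∃ D : Divisor K F, z = Divisor.degree D - ell D + 1)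
    ⟨γ + 1, by
      rintro z ⟨D, rfl⟩
      have := hγ D
      linarith⟩
    ⟨_, 0, rfl⟩
  have hub0 : 0 ≤ ub := by
    have := hub _ ⟨0, rfl⟩
    rw [map_zero, ell_zero] at this
    simpa using this
  refine ⟨ub.toNat, fun D => ?_, D₀, ?_⟩
  · rw [Int.toNat_of_nonneg hub0]
    have := hub _ ⟨D, rfl⟩
    linarith
  · rw [Int.toNat_of_nonneg hub0, hD₀]
    ring

/-- if equality holds for `D₀` it holds for every `D ≥ D₀`. -/
theorem ell_eq_of_le [IsAlgClosed K] [IsFF1 K F] {g : ℕ}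
    (hg : ∀ D : Divisor K F, Divisor.degree D + 1 - g ≤ ell D) {D₀ D : Divisor K F}
    (h0 : (ell D₀ : ℤ) = Divisor.degree D₀ + 1 - g) (h : D₀ ≤ D) :
    (ell D : ℤ) = Divisor.degree D + 1 - g := by
  have h1 := ell_sub_le h
  have h2 := hg D
  linarith

/-- equality for all divisors of large degree. -/
theorem exists_ell_eq_of_degree_ge [IsAlgClosed K] [IsFF1 K F] {g : ℕ}
    (hg : ∀ D : Divisor K F, Divisor.degree D + 1 - g ≤ ell D) {D₀ : Divisor K F}
    (h0 : (ell D₀ : ℤ) = Divisor.degree D₀ + 1 - g) :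
    ∀ D : Divisor K F, Divisor.degree D₀ + g ≤ Divisor.degree D →
      (ell D : ℤ) = Divisor.degree D + 1 - g := by
  intro D hD
  have h1 := hg (D - D₀)
  rw [map_sub] at h1
  have h2 : 0 < ell (D - D₀) := by
    have : (0 : ℤ) < ell (D - D₀) := by linarith
    exact_mod_cast this
  obtain ⟨z, hz0, hz⟩ := riemannIneq_exists_ne_zero h2
  rw [mem_L_iff_divOf hz0] at hz
  have h3 : D₀ ≤ D + divOf K z := by
    have : D + divOf K z = D₀ + (D - D₀ + divOf K z) := by abel
    rw [this]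
    exact le_add_of_nonneg_right hz
  have h4 := ell_eq_of_le hg h0 h3
  rwa [ell_add_divOf _ hz0, map_add, degree_divOf, add_zero] at h4

end Fermat.Agent.GAL.FF
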